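/-
S33, middle layer (chief helper165).  THE THREE GEOMETRIC NODES, stated on the Kummer model
`GAL.E.W` at exponent `p`, in the vocabulary of block E of GAL and of project C1.

Level `M * p`, `p` an odd prime not dividing `M`; `A` a valuation subring of `ℚ̄` above `p`.
* `NodeOld1 M p` (ordinary dynamics, level `M`): on a `T_p`-stable subgroup `Z` of `K_∞` on which
  `T_p` is injective, an inertia element acting non trivially on `μ_p` has no nonzero fixed vector.
* `NodeOld2 M p` (level `M`): a class on which inertia acts through the cyclotomic character and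
  which is killed by `T_p` vanishes.
* `NodeNew M p` (level `M * p`): a `p`-new class which is `≡ 1` at `v_∞` and at `v_0` and which is
  fixed by an inertia element acting non trivially on `μ_p` vanishes.
-/
import Fermat.Agent.C1.Defs
import Fermat.Agent.S30.Defs

set_option autoImplicit false

noncomputable section

namespace Fermat.Agent.S33.Mid

open Fermat.Agent.S24 Fermat.Agent.GAL Fermat.Agent.GAL.E Fermat.Agent.C1 Fermat.Agent.S30

/-- **Node Old1** (= L1 of the plan, fixed-vector form). -/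
def NodeOld1 (M p : ℕ) [NeZero p] : Prop :=
  ∀ (A : ValuationSubring Kbar), A.LiesOverPrime p → ∀ (Hp : HeckeOp M p)
    (Z : AddSubgroup (W M p)), (∀ z ∈ Z, IsKinf A z) → (∀ z ∈ Z, Hp.TW p z ∈ Z) →
    (∀ z ∈ Z, Hp.TW p z = 0 → z = 0) →
    ∀ s : E.GQ, s ∈ A.inertiaSubgroupIn ℚ → ∀ a : ℕ, IsCyc p 1 s a → ¬ a ≡ 1 [MOD p] →
      ∀ z ∈ Z, rho M p s z = z → z = 0

/-- **Node Old2** (= L2 of the plan). -/
def NodeOld2 (M p : ℕ) [NeZero p] : Prop :=
  ∀ (A : ValuationSubring Kbar), A.LiesOverPrime p → ∀ (Hp : HeckeOp M p) (z : W M p),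
    IsKinf A z →
    (∀ σ : E.GQ, σ ∈ A.inertiaSubgroupIn ℚ → ∀ a : ℕ, IsCyc p 1 σ a → rho M p σ z = a • z) →
    Hp.TW p z = 0 → z = 0

/-- **Node New** (= L3 of the plan, fixed-vector form). -/
def NodeNew (M p : ℕ) [NeZero M] [NeZero p] : Prop :=
  ∀ (D : ALData M p) (A : ValuationSubring Kbar), A.LiesOverPrime p → ∀ x : W (M * p) p,
    IsTor D A x → D.nmW p x = 0 → D.nmW p (D.wW p x) = 0 →
    ∀ s : E.GQ, s ∈ A.inertiaSubgroupIn ℚ → ∀ a : ℕ, IsCyc p 1 s a → ¬ a ≡ 1 [MOD p] →
      rho (M * p) p s x = x → x = 0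

end Fermat.Agent.S33.Mid

end
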