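/-
S33 (helper45): final assembly of the three geometric nodes.

`nodesStatement` : `Mid.NodesStatement` from the only provider which is not yet a theorem, the
statement `New.NodalEQ M p` of the nodal core (for `p ≥ 5`, or `p = 3` and `2 ∣ M`).  Cases:
* `p ≥ 5`            : `S18.Base.nonempty_baseData_j`;
* `p = 3`, `2 ∣ M`   : `S18.Base.nonempty_baseData_h2`;
* `p = 3`, `M` odd   : the nodes at level `M * 2` and block LEVEL3 (`S33/Inst/Level3*.lean`).
-/
import Fermat.Agent.S33.Mid.Final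
import Fermat.Agent.S33.Old.Old1
import Fermat.Agent.S33.Old.Old2
import Fermat.Agent.S33.New.Top
import Fermat.Agent.S33.Inst.Level3New
import Fermat.Agent.S18.Base.Bases
import Fermat.Agent.NV2.Consumer

set_option autoImplicit false

namespace Fermat.Agent.S33.Mid

open Fermat.Agent.GAL Fermat.Agent.C1

/-- What the nodal core has to deliver. -/
def NodalEQStatement : Prop :=
  ∀ (M p : ℕ) [NeZero M] [NeZero p], p.Prime → p ≠ 2 → ¬ p ∣ M → (5 ≤ p ∨ (p = 3 ∧ 2 ∣ M)) →
    New.NodalEQ M p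

/-- The three nodes at a level which carries a base. -/
theorem nodes_of_base (hEQ : NodalEQStatement) (M p : ℕ) [NeZero M] [NeZero p] (hp : p.Prime)
    (hp2 : p ≠ 2) (hpM : ¬ p ∣ M) (hD : Nonempty (S18.BaseData M p))
    (h53 : 5 ≤ p ∨ (p = 3 ∧ 2 ∣ M)) :
    NodeOld1 M p ∧ NodeOld2 M p ∧ NodeNew M p := by
  have : Fact p.Prime := ⟨hp⟩
  obtain ⟨D⟩ := hD
  exact ⟨Old.nodeOld1 hp2 hpM D (NV2.finite_W M p hp.pos), Old.nodeOld2 hp2 hpM D,
    New.nodeNew_of_nodalEQ hp (hEQ M p hp hp2 hpM h53)⟩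

/-- **The three geometric nodes, for all levels.** -/
theorem nodesStatement (hEQ : NodalEQStatement) : NodesStatement := by
  intro M p _ _ hp hp2 hpM
  by_cases h5 : 5 ≤ p
  · exact nodes_of_base hEQ M p hp hp2 hpM (S18.Base.nonempty_baseData_j M p hp h5) (Or.inl h5)
  · have hp3 : p = 3 := by
      have h2 := hp.two_le
      have h4 : p ≠ 4 := by
        rintro rfl
        exact absurd hp (by norm_num)
      omega
    subst hp3
    by_cases h2M : 2 ∣ M
    · exact nodes_of_base hEQ M 3 hp hp2 hpM (S18.Base.nonempty_baseData_h2 M h2M)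
        (Or.inr ⟨rfl, h2M⟩)
    · have h3 : ¬ 3 ∣ M * 2 := fun h =>
        (Nat.prime_three.dvd_mul.1 h).elim hpM (by norm_num)
      obtain ⟨n1, n2, n3⟩ := nodes_of_base hEQ (M * 2) 3 hp hp2 h3
        (S18.Base.nonempty_baseData_h2 (M * 2) (dvd_mul_left 2 M)) (Or.inr ⟨rfl, dvd_mul_left 2 M⟩)
      exact ⟨Inst.nodeOld1_of_mul_two h2M hpM n1, Inst.nodeOld2_of_mul_two h2M hpM n2,
        Inst.nodeNew_of_mul_two h2M hpM n3⟩

end Fermat.Agent.S33.Mid
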