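/-
S33, middle layer (chief helper165).  Abstract algebra (Mathlib only).

* `IsPrim θ' x`     : `x` is killed by a power of every `Q` with `θ' Q = 0`;
* `fixed_eq_zero`   : (M3) the fixed-vector statement (iii') at level `M p` from the three nodes, the
                      norm maps `ν₁, ν₂` to level `M`, and the existence of cyclotomic eigenvectors
                      in Galois stable primary subgroups at level `M`.
-/
import Mathlib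

set_option autoImplicit false

namespace Fermat.Agent.S33.Mid

variable {R : Type*} [CommRing R] {κ : Type*} [Field κ]

/-- `x` is `θ'`-primary. -/
def IsPrim {W : Type*} [AddCommGroup W] [Module R W] (θ' : R →+* κ) (x : W) : Prop :=
  ∀ Q : R, θ' Q = 0 → ∃ n : ℕ, Q ^ n • x = 0

section

variable {W W' : Type*} [AddCommGroup W] [Module R W] [AddCommGroup W'] [Module R W']

theorem IsPrim.zero (θ' : R →+* κ) : IsPrim θ' (0 : W) := fun _ _ => ⟨0, smul_zero _⟩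

theorem IsPrim.map {θ' : R →+* κ} {x : W} (h : IsPrim θ' x) (f : W →ₗ[R] W') :
    IsPrim θ' (f x) := by
  intro Q hQ
  obtain ⟨n, hn⟩ := h Q hQ
  exact ⟨n, by rw [← map_smul, hn, map_zero]⟩

theorem IsPrim.add {θ' : R →+* κ} {x y : W} (hx : IsPrim θ' x) (hy : IsPrim θ' y) :
    IsPrim θ' (x + y) := by
  intro Q hQ
  obtain ⟨n, hn⟩ := hx Q hQ
  obtain ⟨m, hm⟩ := hy Q hQ
  refine ⟨n + m, ?_⟩
  have h1 : Q ^ (n + m) • x = 0 := by rw [pow_add, mul_comm, mul_smul, hn, smul_zero]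
  have h2 : Q ^ (n + m) • y = 0 := by rw [pow_add, mul_smul, hm, smul_zero]
  rw [smul_add, h1, h2, add_zero]

theorem IsPrim.neg {θ' : R →+* κ} {x : W} (hx : IsPrim θ' x) : IsPrim θ' (-x) := by
  intro Q hQ
  obtain ⟨n, hn⟩ := hx Q hQ
  exact ⟨n, by rw [smul_neg, hn, neg_zero]⟩

theorem IsPrim.smul {θ' : R →+* κ} {x : W} (hx : IsPrim θ' x) (c : R) : IsPrim θ' (c • x) := by
  intro Q hQ
  obtain ⟨n, hn⟩ := hx Q hQ
  exact ⟨n, by rw [smul_comm, hn, smul_zero]⟩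

/-- If `(a - 1) z ∈ K'`, `p z = 0` and `a ≢ 1 mod p` then `z ∈ K'`. -/
theorem mem_of_nsmul_sub_mem {p a : ℕ} (hp : p.Prime) (ha : ¬ a ≡ 1 [MOD p]) (K' : AddSubgroup W')
    {z : W'} (hz : p • z = 0) (h : a • z - z ∈ K') : z ∈ K' := by
  have hcop : IsCoprime ((a : ℤ) - 1) (p : ℤ) := by
    have hpz : Prime (p : ℤ) := Nat.prime_iff_prime_int.mp hp
    rw [isCoprime_comm]
    refine (Prime.coprime_iff_not_dvd hpz).2 ?_
    intro hd
    apply ha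
    exact ((Nat.modEq_iff_dvd.2 (by simpa using hd)) : 1 ≡ a [MOD p]).symm
  obtain ⟨u, v, huv⟩ := hcop
  have h1 : z = u • (a • z - z) := by
    have e : (1 : ℤ) • z = (u * ((a : ℤ) - 1) + v * (p : ℤ)) • z := by rw [huv]
    rw [one_smul, add_smul, mul_smul, mul_smul, natCast_zsmul, hz, smul_zero, add_zero, sub_smul,
      natCast_zsmul, one_smul] at e
    exact e
  rw [h1]
  exact K'.zsmul_mem h u

variable {G : Type*} [Group G]

/-- **(M3)** the fixed-vector statement at level `M p`. -/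
theorem fixed_eq_zero {p : ℕ} (hp : p.Prime) (θ' : R →+* κ)
    (ρ : G →* Module.End R W) (ρ' : G →* Module.End R W')
    (ν₁ ν₂ : W →ₗ[R] W') (hν₁ : ∀ g x, ν₁ (ρ g x) = ρ' g (ν₁ x))
    (hν₂ : ∀ g x, ν₂ (ρ g x) = ρ' g (ν₂ x))
    (Tp : Module.End R W') (hTp : ∀ g z, Tp (ρ' g z) = ρ' g (Tp z))
    (K : AddSubgroup W) (K' : AddSubgroup W') (hK₁ : ∀ x ∈ K, ν₁ x ∈ K') (hK₂ : ∀ x ∈ K, ν₂ x ∈ K')
    (hTK : ∀ z ∈ K', Tp z ∈ K') (I : Subgroup G) (cyc : G → ℕ → Prop)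
    (hsub' : ∀ σ ∈ I, ∀ z : W', ρ' σ z - z ∈ K')
    (hnew : ∀ x ∈ K, p • x = 0 → ν₁ x = 0 → ν₂ x = 0 → ∀ s ∈ I, ∀ a : ℕ, cyc s a →
      ¬ a ≡ 1 [MOD p] → ρ s x = x → x = 0)
    (hold1 : ∀ Z : AddSubgroup W', (∀ z ∈ Z, z ∈ K' ∧ p • z = 0) → (∀ z ∈ Z, Tp z ∈ Z) →
      (∀ z ∈ Z, Tp z = 0 → z = 0) → ∀ s ∈ I, ∀ a : ℕ, cyc s a → ¬ a ≡ 1 [MOD p] →
      ∀ z ∈ Z, ρ' s z = z → z = 0)
    (hold2 : ∀ z ∈ K', p • z = 0 → (∀ σ ∈ I, ∀ a : ℕ, cyc σ a → ρ' σ z = a • z) → Tp z = 0 → z = 0)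
    (hiso : ∀ Y : Submodule R W', (∀ g, ∀ z ∈ Y, ρ' g z ∈ Y) →
      (∀ z ∈ Y, p • z = 0 ∧ IsPrim θ' z) → Y ≠ ⊥ →
      ∃ z ∈ Y, z ≠ 0 ∧ ∀ σ ∈ I, ∀ a : ℕ, cyc σ a → ρ' σ z = a • z)
    (x : W) (hx : x ∈ K) (hpx : p • x = 0) (hprim : IsPrim θ' x) (s : G) (hs : s ∈ I) (a : ℕ)
    (ha : cyc s a) (hne : ¬ a ≡ 1 [MOD p]) (hfix : ρ s x = x) : x = 0 := by
  -- `T_p` is injective on the primary `p`-torsion
  let Y : Submodule R W' :=
    { carrier := {z | p • z = 0 ∧ IsPrim θ' z ∧ Tp z = 0}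
      zero_mem' := ⟨smul_zero _, IsPrim.zero θ', map_zero _⟩
      add_mem' := by
        rintro y z ⟨h1, h2, h3⟩ ⟨h1', h2', h3'⟩
        exact ⟨by rw [smul_add, h1, h1', add_zero], h2.add h2', by rw [map_add, h3, h3', add_zero]⟩
      smul_mem' := by
        rintro c z ⟨h1, h2, h3⟩
        exact ⟨by rw [smul_comm, h1, smul_zero], h2.smul c, by rw [map_smul, h3, smul_zero]⟩ }
  have hY : Y = ⊥ := by
    by_contra hYne
    obtain ⟨z, hzY, hz0, hz⟩ := hiso Y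
      (fun g z hz => ⟨by rw [← map_nsmul, hz.1, map_zero], hz.2.1.map (ρ' g),
        by rw [hTp, hz.2.2, map_zero]⟩)
      (fun z hz => ⟨hz.1, hz.2.1⟩) hYne
    have hzK : z ∈ K' := by
      apply mem_of_nsmul_sub_mem hp hne K' hzY.1
      rw [← hz s hs a ha]
      exact hsub' s hs z
    exact hz0 (hold2 z hzK hzY.1 hz hzY.2.2)
  let Z : AddSubgroup W' :=
    { carrier := {z | z ∈ K' ∧ p • z = 0 ∧ IsPrim θ' z}
      zero_mem' := ⟨K'.zero_mem, smul_zero _, IsPrim.zero θ'⟩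
      add_mem' := by
        rintro y z ⟨h1, h2, h3⟩ ⟨h1', h2', h3'⟩
        exact ⟨K'.add_mem h1 h1', by rw [smul_add, h2, h2', add_zero], h3.add h3'⟩
      neg_mem' := by
        rintro z ⟨h1, h2, h3⟩
        exact ⟨K'.neg_mem h1, by rw [smul_neg, h2, neg_zero], h3.neg⟩ }
  have hZ := hold1 Z (fun z hz => ⟨hz.1, hz.2.1⟩)
    (fun z hz => ⟨hTK z hz.1, by rw [← map_nsmul, hz.2.1, map_zero], hz.2.2.map Tp⟩)
    (fun z hz hT => by
      have : z ∈ Y := ⟨hz.2.1, hz.2.2, hT⟩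
      rw [hY] at this
      exact (Submodule.mem_bot R).1 this) s hs a ha hne
  have h1 : ν₁ x = 0 := hZ (ν₁ x)
    ⟨hK₁ x hx, by rw [← map_nsmul, hpx, map_zero], hprim.map ν₁⟩ (by rw [← hν₁, hfix])
  have h2 : ν₂ x = 0 := hZ (ν₂ x)
    ⟨hK₂ x hx, by rw [← map_nsmul, hpx, map_zero], hprim.map ν₂⟩ (by rw [← hν₂, hfix])
  exact hnew x hx hpx h1 h2 s hs a ha hne hfix

end

end Fermat.Agent.S33.Mid
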