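/-
S33, middle layer (chief helper165).  (M2) existence of cyclotomic eigenvectors of inertia in Galois
stable primary `p`-torsion modules satisfying the Eichler-Shimura relations of an ordinary,
absolutely irreducible residual representation.
-/
import Fermat.Agent.S33.Mid.Abs
import Fermat.Agent.S33.TopAlg
import Fermat.Agent.S30.Cyclo

set_option autoImplicit false

namespace Fermat.Agent.S33.Mid

open Fermat.Agent.S30

section core

variable {R : Type*} [CommRing R] {κ' : Type*} [Field κ']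
  {W : Type*} [AddCommGroup W] [Module R W] {G : Type*} [Group G]

omit [Module R W] in
theorem eq_zero_of_coprime_zsmul {p : ℕ} {n : ℤ} (hn : IsCoprime n (p : ℤ)) {x : W}
    (hpx : p • x = 0) (h : n • x = 0) : x = 0 := by
  obtain ⟨u, v, huv⟩ := hn
  have h2 : (p : ℤ) • x = 0 := by rw [natCast_zsmul, hpx]
  calc x = (1 : ℤ) • x := (one_smul _ _).symm
    _ = (u * n + v * p) • x := by rw [huv]
    _ = 0 := by rw [add_smul, mul_smul, mul_smul, h, h2, smul_zero, smul_zero, add_zero]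

theorem isCoprime_natCast_of_not_dvd {p b : ℕ} (hp : p.Prime) (hb : ¬ p ∣ b) :
    IsCoprime (b : ℤ) (p : ℤ) := by
  rw [Nat.isCoprime_iff_coprime]
  exact ((Nat.Prime.coprime_iff_not_dvd hp).2 hb).symm

theorem isCoprime_sub_one_of_not_modEq {p a : ℕ} (hp : p.Prime) (ha : ¬ a ≡ 1 [MOD p]) :
    IsCoprime ((a : ℤ) - 1) (p : ℤ) := by
  obtain ⟨b, c, hbc⟩ := exists_bezout hp ha
  exact ⟨b, c, hbc⟩

/-- The abstract situation on the socle `V`. -/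
structure EigCore (p : ℕ) (ψ : R →+* κ') (ρ : G →* Module.End R W) (I : Subgroup G) (τ : G → κ')
    (cyc : G → ℕ → Prop) (s : G) (a : ℕ) (V : Submodule R W) : Prop where
  hp : p.Prime
  cyc_ex : ∀ g, ∃ b, cyc g b
  cyc_mul : ∀ g h b c, cyc g b → cyc h c → cyc (g * h) (b * c)
  cyc_cop : ∀ g b, cyc g b → ¬ p ∣ b
  hs : s ∈ I
  ha : cyc s a
  hne : ¬ a ≡ 1 [MOD p]
  hτI : ∀ σ ∈ I, ∀ b, cyc σ b → τ σ = 1 + (b : κ')
  hτ : ∀ σ ∈ I, ∀ g, τ (s * σ * s * g) - τ (s * σ * g) - a * τ (σ * s * g) + a * τ (σ * g) = 0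
  hnc : ∃ h1 h2 h3, τ (h1 * h2 * h3) ≠ τ (h2 * h1 * h3)
  stab : ∀ g, ∀ z ∈ V, ρ g z ∈ V
  tors : ∀ z ∈ V, p • z = 0
  kill : ∀ z ∈ V, ∀ Q, ψ Q = 0 → Q • z = 0
  inj : ∀ z ∈ V, ∀ Q, ψ Q ≠ 0 → Q • z = 0 → z = 0
  hrep : ∀ g b, cyc g b → ∃ Q : R, (∀ v ∈ V, ρ g v + b • ρ g⁻¹ v = Q • v) ∧ ψ Q = τ g

variable {p : ℕ} {ψ : R →+* κ'} {ρ : G →* Module.End R W} {I : Subgroup G} {τ : G → κ'}
  {cyc : G → ℕ → Prop} {s : G} {a : ℕ} {V : Submodule R W}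

theorem EigCore.rel (h : EigCore p ψ ρ I τ cyc s a V) {σ : G} (hσ : σ ∈ I) {b : ℕ}
    (hb : cyc σ b) {z : W} (hz : z ∈ V) : ρ σ z + b • ρ σ⁻¹ z = z + b • z := by
  obtain ⟨Q, hQ, hQτ⟩ := h.hrep σ b hb
  rw [hQ z hz]
  have h1 : ψ (Q - 1 - (b : R)) = 0 := by
    rw [map_sub, map_sub, hQτ, h.hτI σ hσ b hb, map_one, map_natCast]
    ring
  have h2 := h.kill z hz _ h1
  rw [sub_smul, sub_smul, one_smul, Nat.cast_smul_eq_nsmul, sub_sub, sub_eq_zero] at h2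
  exact h2

theorem EigCore.rel' (h : EigCore p ψ ρ I τ cyc s a V) {σ : G} (hσ : σ ∈ I) {b : ℕ}
    (hb : cyc σ b) {z : W} (hz : z ∈ V) : ρ σ (ρ σ z) + b • z = ρ σ z + b • ρ σ z := by
  have h1 := h.rel hσ hb (h.stab σ z hz)
  rwa [rho_inv_apply] at h1

/-- a `G`- and `R`-stable part of `V` on which `s` acts trivially vanishes. -/
theorem EigCore.st (h : EigCore p ψ ρ I τ cyc s a V) (Y : W → Prop) (hYV : ∀ y, Y y → y ∈ V)
    (hYρ : ∀ (g : G) (y : W), Y y → Y (ρ g y)) (hYR : ∀ (r : R) (y : W), Y y → Y (r • y))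
    (hYs : ∀ y, Y y → ρ s y = y) : ∀ y, Y y → y = 0 := by
  have hYs' : ∀ y, Y y → ρ s⁻¹ y = y := by
    intro y hy
    conv_lhs => rw [← hYs y hy]
    rw [rho_inv_apply]
  have hscal : ∀ g : G, ∃ r : R, ∀ x, Y x → ρ g x = r • x := by
    intro g
    obtain ⟨b, hb⟩ := h.cyc_ex g
    obtain ⟨Q, hQ, -⟩ := h.hrep g b hb
    obtain ⟨Q', hQ', -⟩ := h.hrep (s * g) (a * b) (h.cyc_mul _ _ _ _ h.ha hb)
    obtain ⟨u, v, huv⟩ := exists_bezout h.hp h.hne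
    refine ⟨(u : R) * ((a : R) * Q - Q'), fun x hx => ?_⟩
    have e1 := hQ x (hYV x hx)
    have e2 := hQ' x (hYV x hx)
    rw [rho_mul_apply, mul_inv_rev, rho_mul_apply, hYs _ (hYρ g x hx), hYs' x hx] at e2
    have e3 : ((a : R) * Q - Q') • x = ((a : ℤ) - 1) • ρ g x := by
      rw [sub_smul, mul_smul, ← e1, ← e2, sub_smul, natCast_zsmul, one_smul,
        Nat.cast_smul_eq_nsmul, smul_add, mul_smul]
      abel
    have e4 : (p : ℤ) • ρ g x = 0 := by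
      rw [natCast_zsmul, ← map_nsmul, h.tors x (hYV x hx), map_zero]
    calc ρ g x = (1 : ℤ) • ρ g x := (one_smul _ _).symm
      _ = (u * ((a : ℤ) - 1) + v * p) • ρ g x := by rw [huv]
      _ = u • ((a : R) * Q - Q') • x := by
          rw [add_smul, mul_smul, mul_smul, e4, smul_zero, add_zero, e3]
      _ = ((u : R) * ((a : R) * Q - Q')) • x := by rw [mul_smul, Int.cast_smul_eq_zsmul]
  obtain ⟨h1, h2, h3, hnc⟩ := h.hnc
  obtain ⟨r1, hr1⟩ := hscal h1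
  obtain ⟨r2, hr2⟩ := hscal h2
  obtain ⟨r3, hr3⟩ := hscal h3
  have hA : ∀ x, Y x → ρ (h1 * h2 * h3) x = ρ (h2 * h1 * h3) x := by
    intro x hx
    rw [rho_mul_apply, rho_mul_apply, rho_mul_apply, rho_mul_apply, hr3 x hx,
      hr2 _ (hYR _ _ hx), hr1 _ (hYR _ _ (hYR _ _ hx)), hr1 _ (hYR _ _ hx),
      hr2 _ (hYR _ _ (hYR _ _ hx)), smul_comm r1 r2]
  have hB : ∀ x, Y x → ρ (h1 * h2 * h3)⁻¹ x = ρ (h2 * h1 * h3)⁻¹ x := by
    intro x hx
    have e := hA _ (hYρ (h1 * h2 * h3)⁻¹ x hx)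
    rw [rho_apply_inv] at e
    conv_rhs => rw [e]
    rw [rho_inv_apply]
  obtain ⟨c1, hc1⟩ := h.cyc_ex h1
  obtain ⟨c2, hc2⟩ := h.cyc_ex h2
  obtain ⟨c3, hc3⟩ := h.cyc_ex h3
  have k123 := h.cyc_mul _ _ _ _ (h.cyc_mul _ _ _ _ hc1 hc2) hc3
  have k213 := h.cyc_mul _ _ _ _ (h.cyc_mul _ _ _ _ hc2 hc1) hc3
  rw [mul_comm c2 c1] at k213
  obtain ⟨Q123, r123, t123⟩ := h.hrep _ _ k123
  obtain ⟨Q213, r213, t213⟩ := h.hrep _ _ k213
  intro y hy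
  have e1 := r123 y (hYV y hy)
  have e2 := r213 y (hYV y hy)
  rw [hA _ hy, hB _ hy, e2] at e1
  apply h.inj y (hYV y hy) (Q123 - Q213)
  · rw [map_sub, t123, t213]
    exact sub_ne_zero.2 hnc
  · rw [sub_smul, e1, sub_self]

/-- the four term relation. -/
theorem EigCore.four (h : EigCore p ψ ρ I τ cyc s a V) {σ : G} (hσ : σ ∈ I) (g : G) {b c : ℕ}
    (hb : cyc σ b) (hc : cyc g c) {v : W} (hv : v ∈ V) :
    ρ s (ρ σ (ρ s (ρ g v))) - ρ s (ρ σ (ρ g v)) - a • ρ σ (ρ s (ρ g v)) + a • ρ σ (ρ g v)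
      + (a * b * c) • (a • ρ g⁻¹ (ρ s⁻¹ (ρ σ⁻¹ (ρ s⁻¹ v))) - ρ g⁻¹ (ρ σ⁻¹ (ρ s⁻¹ v))
        - a • ρ g⁻¹ (ρ s⁻¹ (ρ σ⁻¹ v)) + ρ g⁻¹ (ρ σ⁻¹ v)) = 0 := by
  obtain ⟨Q1, R1, t1⟩ := h.hrep (s * σ * s * g) (a * b * a * c)
    (h.cyc_mul _ _ _ _ (h.cyc_mul _ _ _ _ (h.cyc_mul _ _ _ _ h.ha hb) h.ha) hc)
  obtain ⟨Q2, R2, t2⟩ := h.hrep (s * σ * g) (a * b * c)
    (h.cyc_mul _ _ _ _ (h.cyc_mul _ _ _ _ h.ha hb) hc)
  obtain ⟨Q3, R3, t3⟩ := h.hrep (σ * s * g) (b * a * c)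
    (h.cyc_mul _ _ _ _ (h.cyc_mul _ _ _ _ hb h.ha) hc)
  obtain ⟨Q4, R4, t4⟩ := h.hrep (σ * g) (b * c) (h.cyc_mul _ _ _ _ hb hc)
  have h0 : ψ (Q1 - Q2 - (a : R) * Q3 + (a : R) * Q4) = 0 := by
    rw [map_add, map_sub, map_sub, map_mul, map_mul, map_natCast, t1, t2, t3, t4]
    exact h.hτ σ hσ g
  have h1 := h.kill v hv _ h0
  rw [add_smul, sub_smul, sub_smul, mul_smul, mul_smul, Nat.cast_smul_eq_nsmul, ← R1 v hv,
    ← R2 v hv, ← R3 v hv, ← R4 v hv] at h1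
  simp only [rho_mul_apply, mul_inv_rev] at h1
  simp only [← natCast_zsmul] at h1 ⊢
  push_cast at h1 ⊢
  linear_combination (norm := module) h1

/-- `(s - a) σ (s - 1) = 0` on `V` for `σ` in `I`. -/
theorem EigCore.esf (h : EigCore p ψ ρ I τ cyc s a V) {σ : G} (hσ : σ ∈ I) {x : W} (hx : x ∈ V) :
    ρ s (ρ σ (ρ s x - x)) - a • ρ σ (ρ s x - x) = 0 := by
  set w : W := ρ s (ρ σ (ρ s x - x)) - a • ρ σ (ρ s x - x) with hw
  have hwV : w ∈ V :=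
    V.sub_mem (h.stab _ _ (h.stab _ _ (V.sub_mem (h.stab _ _ hx) hx)))
      (V.smul_of_tower_mem a (h.stab _ _ (V.sub_mem (h.stab _ _ hx) hx)))
  obtain ⟨b, hb⟩ := h.cyc_ex σ⁻¹
  -- `y' = s⁻¹ w` is fixed by `s` after any translation
  have key : ∀ g : G, ρ s (ρ g (ρ s⁻¹ w)) = ρ g (ρ s⁻¹ w) := by
    intro g
    obtain ⟨c, hc⟩ := h.cyc_ex g⁻¹
    have h4 := h.four (I.inv_mem hσ) g⁻¹ hb hc (h.stab s x hx)
    rw [inv_inv, inv_inv, rho_inv_apply] at h4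
    -- the first part is `e u`
    set u : W := ρ σ⁻¹ (ρ s (ρ g⁻¹ (ρ s x))) - ρ σ⁻¹ (ρ g⁻¹ (ρ s x)) with hu
    have huV : u ∈ V :=
      V.sub_mem (h.stab _ _ (h.stab _ _ (h.stab _ _ (h.stab _ _ hx))))
        (h.stab _ _ (h.stab _ _ (h.stab _ _ hx)))
    have hfe := h.rel' h.hs h.ha huV
    have h5 : ((a : ℤ) * b * c) • (ρ s (ρ g (ρ s⁻¹ w)) - ρ g (ρ s⁻¹ w)) = 0 := by
      have h6 := congrArg (fun t => ρ s t - t) h4
      simp only [map_zero, sub_zero] at h6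
      simp only [hw, hu, map_sub, map_add, map_nsmul, rho_inv_apply] at h6 hfe ⊢
      simp only [← natCast_zsmul] at h6 hfe ⊢
      push_cast at h6 hfe ⊢
      linear_combination (norm := module) h6 - hfe
    have hV : ρ s (ρ g (ρ s⁻¹ w)) - ρ g (ρ s⁻¹ w) ∈ V :=
      V.sub_mem (h.stab _ _ (h.stab _ _ (h.stab _ _ hwV))) (h.stab _ _ (h.stab _ _ hwV))
    have hcop : IsCoprime ((a : ℤ) * b * c) (p : ℤ) :=
      ((isCoprime_natCast_of_not_dvd h.hp (h.cyc_cop _ _ h.ha)).mul_left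
        (isCoprime_natCast_of_not_dvd h.hp (h.cyc_cop _ _ hb))).mul_left
        (isCoprime_natCast_of_not_dvd h.hp (h.cyc_cop _ _ hc))
    exact sub_eq_zero.1 (eq_zero_of_coprime_zsmul hcop (h.tors _ hV) h5)
  have h0 := h.st (fun y => y ∈ V ∧ ∀ g : G, ρ s (ρ g y) = ρ g y) (fun y hy => hy.1)
    (fun g y hy => ⟨h.stab g y hy.1, fun g' => by
      have h7 := hy.2 (g' * g)
      rwa [rho_mul_apply] at h7⟩)
    (fun r y hy => ⟨V.smul_mem r hy.1, fun g => by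
      rw [map_smul, map_smul, hy.2 g]⟩)
    (fun y hy => by simpa using hy.2 1) (ρ s⁻¹ w) ⟨h.stab _ _ hwV, key⟩
  have h1 := congrArg (ρ s) h0
  rwa [rho_apply_inv, map_zero] at h1

/-- the eigenspace `s = a` in `V` is stable under `I`. -/
theorem EigCore.stable_eig (h : EigCore p ψ ρ I τ cyc s a V) {σ : G} (hσ : σ ∈ I) {z : W}
    (hz : z ∈ V) (hsz : ρ s z = a • z) : ρ s (ρ σ z) = a • ρ σ z := by
  have h1 := h.esf hσ hz
  rw [hsz] at h1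
  have hV : ρ s (ρ σ z) - a • ρ σ z ∈ V :=
    V.sub_mem (h.stab _ _ (h.stab _ _ hz)) (V.smul_of_tower_mem a (h.stab _ _ hz))
  have h2 : ((a : ℤ) - 1) • (ρ s (ρ σ z) - a • ρ σ z) = 0 := by
    simp only [map_sub, map_nsmul] at h1
    simp only [← natCast_zsmul] at h1 ⊢
    linear_combination (norm := module) h1
  exact sub_eq_zero.1
    (eq_zero_of_coprime_zsmul (isCoprime_sub_one_of_not_modEq h.hp h.hne) (h.tors _ hV) h2)

theorem EigCore.eig (h : EigCore p ψ ρ I τ cyc s a V) {σ : G} (hσ : σ ∈ I) {b : ℕ}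
    (hb : cyc σ b) {z : W} (hz : z ∈ V) (hsz : ρ s z = a • z) : ρ σ z = b • z := by
  have hz1 := h.stable_eig hσ hz hsz
  have hz2 := h.stable_eig hσ (h.stab σ z hz) hz1
  have e1 := h.rel' hσ hb hz
  have e2 := h.rel' (I.mul_mem h.hs hσ) (h.cyc_mul _ _ _ _ h.ha hb) hz
  simp only [rho_mul_apply, hz1, map_nsmul, hz2] at e2
  have hV : ρ σ z - b • z ∈ V := V.sub_mem (h.stab _ _ hz) (V.smul_of_tower_mem b hz)
  have h2 : ((a : ℤ) * ((a : ℤ) - 1)) • (ρ σ z - b • z) = 0 := by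
    simp only [← natCast_zsmul] at e1 e2 ⊢
    push_cast at e1 e2 ⊢
    linear_combination (norm := module) e2 - ((a : ℤ) * a) • e1
  exact sub_eq_zero.1 (eq_zero_of_coprime_zsmul
    ((isCoprime_natCast_of_not_dvd h.hp (h.cyc_cop _ _ h.ha)).mul_left
      (isCoprime_sub_one_of_not_modEq h.hp h.hne)) (h.tors _ hV) h2)

theorem EigCore.exists_eigen (h : EigCore p ψ ρ I τ cyc s a V) (hV : V ≠ ⊥) :
    ∃ z ∈ V, z ≠ 0 ∧ ∀ σ ∈ I, ∀ b : ℕ, cyc σ b → ρ σ z = b • z := by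
  have hA : ∃ x ∈ V, ρ s x ≠ x := by
    by_contra hcon
    push Not at hcon
    apply hV
    rw [Submodule.eq_bot_iff]
    exact h.st (fun y => y ∈ V) (fun y hy => hy) h.stab (fun r y hy => V.smul_mem r hy) hcon
  obtain ⟨x, hx, hsx⟩ := hA
  have hzV : ρ s x - x ∈ V := V.sub_mem (h.stab _ _ hx) hx
  refine ⟨ρ s x - x, hzV, sub_ne_zero.2 hsx, fun σ hσ b hb => h.eig hσ hb hzV ?_⟩
  have e1 := h.rel' h.hs h.ha hx
  rw [map_sub, smul_sub, sub_eq_sub_iff_add_eq_add, e1, add_comm]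

end core

/-- a nonzero primary finite module has a nonzero element killed by the kernel of `θ'`. -/
theorem exists_socle {R : Type*} [CommRing R] {κ : Type*} [Field κ] (θ' : R →+* κ)
    {W' : Type*} [AddCommGroup W'] [Module R W'] [Finite W'] (Y : Submodule R W')
    (hYp : ∀ z ∈ Y, IsPrim θ' z) (hY0 : Y ≠ ⊥) :
    ∃ z ∈ Y, z ≠ 0 ∧ ∀ Q, θ' Q = 0 → Q • z = 0 := by
  have main : ∀ n : ℕ, ∀ z ∈ Y, z ≠ 0 → (Set.range (fun r : R => r • z)).ncard ≤ n →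
      ∃ z ∈ Y, z ≠ 0 ∧ ∀ Q, θ' Q = 0 → Q • z = 0 := by
    intro n
    induction n with
    | zero =>
      intro z _ _ hn
      exfalso
      have h1 : (Set.range (fun r : R => r • z)).ncard = 0 := Nat.le_zero.1 hn
      rw [Set.ncard_eq_zero (Set.toFinite _)] at h1
      exact (Set.range_nonempty (fun r : R => r • z)).ne_empty h1
    | succ n ih =>
      intro z hz hz0 hn
      by_cases hsoc : ∀ Q, θ' Q = 0 → Q • z = 0
      · exact ⟨z, hz, hz0, hsoc⟩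
      · push Not at hsoc
        obtain ⟨Q, hQ, hQz⟩ := hsoc
        apply ih (Q • z) (Y.smul_mem Q hz) hQz
        have hlt : (Set.range (fun r : R => r • Q • z)).ncard
            < (Set.range (fun r : R => r • z)).ncard := by
          apply Set.ncard_lt_ncard _ (Set.toFinite _)
          refine ⟨?_, ?_⟩
          · rintro _ ⟨r, rfl⟩
            exact ⟨r * Q, mul_smul _ _ _⟩
          · intro hsub
            obtain ⟨r, hr⟩ := hsub ⟨1, one_smul _ _⟩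
            simp only at hr
            apply hz0
            obtain ⟨m, hm⟩ := hYp z hz (r * Q) (by rw [map_mul, hQ, mul_zero])
            have hpow : ∀ m : ℕ, (r * Q) ^ m • z = z := by
              intro m
              induction m with
              | zero => simp
              | succ m ihm => rw [pow_succ, mul_smul, mul_smul, hr, ihm]
            rw [← hpow m, hm]
        omega
  obtain ⟨z, hz, hz0⟩ := Submodule.exists_mem_ne_zero_of_ne_bot hY0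
  exact main _ z hz hz0 le_rfl

theorem IsCyc.not_dvd {p : ℕ} [Fact p.Prime] {g : GQ} {b : ℕ} (hb : IsCyc p 1 g b) : ¬ p ∣ b := by
  have hp : p.Prime := Fact.out
  intro hd
  obtain ⟨f, hf⟩ := exists_isCyc p 1 g⁻¹
  have h1 := hb.mul_inv_modEq hf
  rw [pow_one] at h1
  have h2 : b * f ≡ 0 [MOD p] := (Nat.modEq_zero_iff_dvd).2 (Dvd.dvd.mul_right hd f)
  have h3 : p ∣ 1 := (Nat.modEq_zero_iff_dvd).1 (h1.symm.trans h2)
  exact hp.one_lt.ne' (Nat.dvd_one.1 h3)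

/-- **(M2)**.  `τ` = residual trace, `ψ` = residual eigensystem with values in the field of `τ`. -/
theorem exists_eigen {p : ℕ} [Fact p.Prime] {R : Type*} [CommRing R] {κ κ' : Type*} [Field κ]
    [Finite κ] [Field κ'] (θ' : R →+* κ) (ψ : R →+* κ') (hψ : ∀ Q, ψ Q = 0 ↔ θ' Q = 0)
    {W' : Type*} [AddCommGroup W'] [Module R W'] [Finite W']
    (ρ' : GQ →* Module.End R W') (I : Subgroup GQ) (τ : GQ → κ')
    (s : GQ) (hs : s ∈ I) (a : ℕ) (ha : IsCyc p 1 s a) (hne : ¬ a ≡ 1 [MOD p])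
    (hτI : ∀ σ ∈ I, ∀ b, IsCyc p 1 σ b → τ σ = 1 + (b : κ'))
    (hτ : ∀ σ ∈ I, ∀ g, τ (s * σ * s * g) - τ (s * σ * g) - a * τ (σ * s * g) + a * τ (σ * g) = 0)
    (hnc : ∃ h1 h2 h3, τ (h1 * h2 * h3) ≠ τ (h2 * h1 * h3))
    (Y : Submodule R W') (hY : ∀ g, ∀ z ∈ Y, ρ' g z ∈ Y)
    (hYp : ∀ z ∈ Y, p • z = 0 ∧ IsPrim θ' z) (hY0 : Y ≠ ⊥)
    (hrep : ∀ g b, IsCyc p 1 g b →
      ∃ Q : R, (∀ v ∈ Y, ρ' g v + b • ρ' g⁻¹ v = Q • v) ∧ ψ Q = τ g) :
    ∃ z ∈ Y, z ≠ 0 ∧ ∀ σ ∈ I, ∀ b : ℕ, IsCyc p 1 σ b → ρ' σ z = b • z := by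
  let V : Submodule R W' :=
    { carrier := {z | z ∈ Y ∧ ∀ Q, θ' Q = 0 → Q • z = 0}
      zero_mem' := ⟨Y.zero_mem, fun _ _ => smul_zero _⟩
      add_mem' := by
        rintro y z ⟨h1, h2⟩ ⟨h1', h2'⟩
        exact ⟨Y.add_mem h1 h1', fun Q hQ => by rw [smul_add, h2 Q hQ, h2' Q hQ, add_zero]⟩
      smul_mem' := by
        rintro c z ⟨h1, h2⟩
        exact ⟨Y.smul_mem c h1, fun Q hQ => by rw [smul_comm, h2 Q hQ, smul_zero]⟩ }
  have hVne : V ≠ ⊥ := by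
    obtain ⟨z, hz, hz0, hsoc⟩ := exists_socle θ' Y (fun z hz => (hYp z hz).2) hY0
    intro hV
    have hzV : z ∈ V := ⟨hz, hsoc⟩
    rw [hV] at hzV
    exact hz0 ((Submodule.mem_bot R).1 hzV)
  have core : EigCore p ψ ρ' I τ (IsCyc p 1) s a V :=
    { hp := Fact.out
      cyc_ex := exists_isCyc p 1
      cyc_mul := fun _ _ _ _ h1 h2 => h1.mul h2
      cyc_cop := fun _ _ h => IsCyc.not_dvd h
      hs := hs
      ha := ha
      hne := hne
      hτI := hτI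
      hτ := hτ
      hnc := hnc
      stab := fun g z hz => ⟨hY g z hz.1, fun Q hQ => by rw [← map_smul, hz.2 Q hQ, map_zero]⟩
      tors := fun z hz => (hYp z hz.1).1
      kill := fun z hz Q hQ => hz.2 Q ((hψ Q).1 hQ)
      inj := by
        intro z hz Q hQ hQz
        have hθ : θ' Q ≠ 0 := fun h0 => hQ ((hψ Q).2 h0)
        obtain ⟨n, hn, h1⟩ := isOfFinOrder_iff_pow_eq_one.1 (isOfFinOrder_of_finite (Units.mk0 _ hθ))
        have h2 : θ' Q ^ n = 1 := by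
          have := congrArg Units.val h1
          simpa using this
        have h3 : (Q ^ n - 1) • z = 0 := hz.2 _ (by rw [map_sub, map_pow, h2, map_one, sub_self])
        obtain ⟨m, rfl⟩ := Nat.exists_eq_succ_of_ne_zero hn.ne'
        rw [sub_smul, one_smul, Nat.succ_eq_add_one, pow_succ, mul_smul, hQz, smul_zero,
          zero_sub, neg_eq_zero] at h3
        exact h3
      hrep := fun g b hb => by
        obtain ⟨Q, hQ, hQτ⟩ := hrep g b hb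
        exact ⟨Q, fun v hv => hQ v hv.1, hQτ⟩ }
  obtain ⟨z, hz, hz0, hzI⟩ := core.exists_eigen hVne
  exact ⟨z, hz.1, hz0, hzI⟩

end Fermat.Agent.S33.Mid
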