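/-
S33, middle layer (chief helper165).  (M1) the cutting element `E`.
-/
import Fermat.Agent.S33.Mid.Abs

set_option autoImplicit false

namespace Fermat.Agent.S33.Mid

/-- **(M1)** On a finite module there is `E` with `θ' E ≠ 0` such that `E • W` is `θ'`-primary.
Proof: `m = ker θ'`; the chain `m ^ n • ⊤` stabilises (`W` finite) at `W₀ = m • W₀`; Nakayama
(`Submodule.exists_sub_one_mem_and_smul_eq_zero_of_fg_of_le_smul`) gives `E` with `E - 1 ∈ m`
killing `W₀`; `Q ^ n • E • w = E • Q ^ n • w = 0`. -/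
theorem exists_idem {R : Type*} [CommRing R] {κ : Type*} [Field κ] (θ' : R →+* κ)
    (W : Type*) [AddCommGroup W] [Module R W] [Finite W] :
    ∃ E : R, θ' E ≠ 0 ∧ ∀ w : W, IsPrim θ' (E • w) := by
  set m : Ideal R := RingHom.ker θ' with hm
  have : IsArtinian R W := inferInstance
  -- the chain `m ^ n • ⊤`
  let f : ℕ →o (Submodule R W)ᵒᵈ :=
    { toFun := fun n => OrderDual.toDual (m ^ n • (⊤ : Submodule R W))
      monotone' := fun a b hab =>
        OrderDual.toDual_le_toDual.mpr (Submodule.smul_mono_left (Ideal.pow_le_pow_right hab)) }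
  obtain ⟨n, hn⟩ := IsArtinian.monotone_stabilizes f
  have hstab : m ^ n • (⊤ : Submodule R W) = m ^ (n + 1) • (⊤ : Submodule R W) :=
    OrderDual.toDual.injective (hn (n + 1) (Nat.le_succ n))
  have hle : m ^ n • (⊤ : Submodule R W) ≤ m • (m ^ n • (⊤ : Submodule R W)) := by
    rw [← Submodule.mul_smul, ← pow_succ', ← hstab]
  have hfg : (m ^ n • (⊤ : Submodule R W)).FG :=
    IsNoetherian.noetherian _
  obtain ⟨E, hE1, hE⟩ :=
    Submodule.exists_sub_one_mem_and_smul_eq_zero_of_fg_of_le_smul m _ hfg hle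
  refine ⟨E, ?_, fun w Q hQ => ⟨n, ?_⟩⟩
  · rw [hm, RingHom.mem_ker, map_sub, map_one, sub_eq_zero] at hE1
    rw [hE1]
    exact one_ne_zero
  · rw [smul_comm]
    apply hE
    exact Submodule.smul_mem_smul (Ideal.pow_mem_pow (by rw [hm, RingHom.mem_ker]; exact hQ) n)
      Submodule.mem_top

end Fermat.Agent.S33.Mid
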