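/-
S33, middle layer, block (M4) (helper45): the embedding `ι : W N p → W N (p ^ (j + 1))`,
`u ↦ u ^ (p ^ j)`, of the Kummer model at exponent `p` onto the `p`-torsion of the Kummer model at
exponent `p ^ (j + 1)`.

* `iota_injective`, `exists_iota_eq` (image = `p`-torsion), `nsmul_iota`;
* `iota_rho`, `iota_TW`, `iota_wW`, `iota_nmW`, `iota_alW` : compatibility with all operators;
* `cong1_of_pow` : `t ^ (p ^ j) ≡ 1` implies `t ≡ 1` (residue characteristic `p`);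
* `IsKinf.iota`, `isKinf_of_iota`, `IsTor.iota`, `isTor_of_iota`.
-/
import Fermat.Agent.C1.Kinf
import Fermat.Agent.GAL.E.Frob

set_option autoImplicit false

noncomputable section

namespace Fermat.Agent.S33.Mid

open ModularCurve AlgebraicCurve Fermat.Agent.S24 Fermat.Agent.S24.B Fermat.Agent.GAL
  Fermat.Agent.GAL.E Fermat.Agent.C1

variable {N p : ℕ} (j : ℕ)

theorem isKum_pow_pow {u : FN N} (hu : IsKum N p u) : IsKum N (p ^ (j + 1)) (u ^ (p ^ j)) := by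
  intro v
  rw [FF.ord_pow]
  obtain ⟨d, hd⟩ := hu v
  rw [hd]
  exact ⟨d, by push_cast; ring⟩

variable (N p)

/-- `u ↦ u ^ (p ^ j)` on Kummer units. -/
def iotaK : kum N p →* kum N (p ^ (j + 1)) :=
  ((powMonoidHom (p ^ j) : (FN N)ˣ →* (FN N)ˣ).comp (kum N p).subtype).codRestrict
    (kum N (p ^ (j + 1))) fun u => by
      show IsKum N (p ^ (j + 1)) ((((u : (FN N)ˣ) ^ (p ^ j) : (FN N)ˣ)) : FN N)
      rw [Units.val_pow_eq_pow_val]
      exact isKum_pow_pow j u.2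

/-- **The embedding** `W N p → W N (p ^ (j + 1))`. -/
def iota : W N p →+ W N (p ^ (j + 1)) :=
  MonoidHom.toAdditive <|
    QuotientGroup.map _ _ (iotaK N p j) (by
      rintro ⟨u, hu⟩ ⟨w, hw⟩
      refine ⟨w, ?_⟩
      show w ^ (p ^ (j + 1)) = u ^ (p ^ j)
      have hw' : w ^ p = u := hw
      rw [← hw', ← pow_mul, pow_succ'])

variable {N p}

theorem coe_iotaK (u : kum N p) :
    (((iotaK N p j u : kum N (p ^ (j + 1))) : (FN N)ˣ) : FN N) =
      (((u : (FN N)ˣ) : FN N)) ^ (p ^ j) :=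
  Units.val_pow_eq_pow_val _ _

theorem iota_cls (u : kum N p) : iota N p j (cls u) = cls (iotaK N p j u) := rfl

/-- two Kummer units with the same class differ by an `n`-th power -/
theorem exists_eq_mul_pow_of_cls_eq {n : ℕ} {u v : kum N n} (h : cls u = cls v) :
    ∃ g : (FN N)ˣ, (u : (FN N)ˣ) = (v : (FN N)ˣ) * g ^ n := by
  have h0 : cls (u * v⁻¹) = 0 := by
    rw [cls_mul, cls_inv, h]
    exact add_neg_cancel (cls v)
  rw [cls_eq_zero_iff] at h0
  obtain ⟨g, hg⟩ := h0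
  refine ⟨g, ?_⟩
  have hg' : g ^ n = (u : (FN N)ˣ) * (v : (FN N)ˣ)⁻¹ := hg
  rw [hg', mul_comm (u : (FN N)ˣ), mul_inv_cancel_left]

theorem cls_eq_of_eq_mul_pow' {n : ℕ} {u v : kum N n} (g : (FN N)ˣ)
    (h : (u : (FN N)ˣ) = (v : (FN N)ˣ) * g ^ n) : cls u = cls v := by
  have h0 : cls (u * v⁻¹) = 0 := by
    rw [cls_eq_zero_iff]
    refine ⟨g, ?_⟩
    show g ^ n = (u : (FN N)ˣ) * (v : (FN N)ˣ)⁻¹
    rw [h, mul_comm (v : (FN N)ˣ), mul_inv_cancel_right]
  rw [cls_mul, cls_inv] at h0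
  exact add_neg_eq_zero.mp h0

/-- a root of unity of `FN N` is a constant, hence an `n`-th power -/
theorem exists_pow_eq_of_pow_eq_one {m n : ℕ} (hm : 0 < m) (hn : 0 < n) {z : (FN N)ˣ}
    (hz : z ^ m = 1) : ∃ d : (FN N)ˣ, d ^ n = z := by
  have hz' : (z : FN N) ^ m = 1 := by
    rw [← Units.val_pow_eq_pow_val, hz, Units.val_one]
  have hint : IsIntegral Kbar (z : FN N) :=
    ⟨Polynomial.X ^ m - Polynomial.C 1, Polynomial.monic_X_pow_sub_C 1 hm.ne', by simp [hz']⟩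
  have hdeg := IsAlgClosed.degree_eq_one_of_irreducible Kbar (minpoly.irreducible hint)
  obtain ⟨c, hc⟩ := minpoly.mem_range_of_degree_eq_one Kbar (z : FN N) hdeg
  obtain ⟨d, hd⟩ := IsAlgClosed.exists_pow_nat_eq c hn
  have hd0 : algebraMap Kbar (FN N) d ≠ 0 := by
    intro h0
    have : (z : FN N) = 0 := by rw [← hc, ← hd, map_pow, h0, zero_pow hn.ne']
    exact z.ne_zero this
  refine ⟨Units.mk0 _ hd0, Units.ext ?_⟩
  rw [Units.val_pow_eq_pow_val, Units.val_mk0, ← map_pow, hd, hc]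

theorem iota_injective (hp : 0 < p) : Function.Injective (iota N p j) := by
  rw [injective_iff_map_eq_zero]
  intro x hx
  obtain ⟨u, rfl⟩ := cls_surjective x
  rw [iota_cls, cls_eq_zero_iff] at hx
  obtain ⟨w, hw⟩ := hx
  have hw' : w ^ (p ^ (j + 1)) = (u : (FN N)ˣ) ^ (p ^ j) := hw
  have h1 : ((u : (FN N)ˣ) * (w ^ p)⁻¹) ^ (p ^ j) = 1 := by
    rw [mul_pow, inv_pow, ← pow_mul, ← pow_succ', hw', mul_inv_cancel]
  obtain ⟨d, hd⟩ := exists_pow_eq_of_pow_eq_one (pow_pos hp j) hp h1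
  rw [cls_eq_zero_iff]
  refine ⟨d * w, ?_⟩
  show (d * w) ^ p = (u : (FN N)ˣ)
  rw [mul_pow, hd, inv_mul_cancel_right]

theorem nsmul_iota (y : W N p) : p • iota N p j y = 0 := by
  rw [← map_nsmul, nsmul_W, map_zero]

/-- The image of `ι` is the `p`-torsion. -/
theorem exists_iota_eq (hp : 0 < p) (x : W N (p ^ (j + 1))) (hx : p • x = 0) :
    ∃ y : W N p, iota N p j y = x := by
  obtain ⟨v, rfl⟩ := cls_surjective x
  rw [← cls_pow, cls_eq_zero_iff] at hx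
  obtain ⟨w, hw⟩ := hx
  have hw' : w ^ (p ^ (j + 1)) = (v : (FN N)ˣ) ^ p := hw
  have h1 : ((v : (FN N)ˣ) * (w ^ (p ^ j))⁻¹) ^ p = 1 := by
    rw [mul_pow, inv_pow, ← pow_mul, ← pow_succ, hw', mul_inv_cancel]
  obtain ⟨d, hd⟩ := exists_pow_eq_of_pow_eq_one hp (pow_pos hp (j + 1)) h1
  have hv : (v : (FN N)ˣ) = w ^ (p ^ j) * d ^ (p ^ (j + 1)) := by
    rw [hd, mul_comm (v : (FN N)ˣ), mul_inv_cancel_left]
  -- `w` is a Kummer unit at exponent `p`
  have hwk : w ∈ kum N p := by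
    intro P
    have h2 : ((p ^ (j + 1) : ℕ) : ℤ) ∣ P.ord ((w : FN N) ^ (p ^ j)) := by
      have h3 : (w : FN N) ^ (p ^ j) =
          ((v : (FN N)ˣ) : FN N) * (((d⁻¹ : (FN N)ˣ) : FN N)) ^ (p ^ (j + 1)) := by
        rw [hv, Units.val_mul, Units.val_pow_eq_pow_val, Units.val_pow_eq_pow_val, mul_assoc,
          ← mul_pow, Units.mul_inv, one_pow, mul_one]
      rw [h3]
      exact (IsKum.mul v.2 (isKum_pow_self N _ _)) P
    rw [FF.ord_pow] at h2
    obtain ⟨e, he⟩ := h2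
    refine ⟨e, ?_⟩
    have hpj : ((p ^ j : ℕ) : ℤ) ≠ 0 := by exact_mod_cast (pow_pos hp j).ne'
    apply mul_left_cancel₀ hpj
    rw [he]
    push_cast
    ring
  refine ⟨cls ⟨w, hwk⟩, ?_⟩
  rw [iota_cls]
  symm
  exact cls_eq_of_eq_mul_pow' d hv

/-! ### compatibility with the operators -/

/-- General principle: `ι` commutes with the maps induced by homomorphisms of unit groups. -/
theorem iota_mapW₂ {N' : ℕ} (f : (FN N)ˣ →* (FN N')ˣ) (hf : ∀ u ∈ kum N p, f u ∈ kum N' p)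
    (hf' : ∀ u ∈ kum N (p ^ (j + 1)), f u ∈ kum N' (p ^ (j + 1))) (y : W N p) :
    iota N' p j (mapW₂ f hf y) = mapW₂ f hf' (iota N p j y) := by
  obtain ⟨u, rfl⟩ := cls_surjective y
  rw [mapW₂_cls, iota_cls, iota_cls, mapW₂_cls]
  refine congrArg cls (Subtype.ext ?_)
  show (f (u : (FN N)ˣ)) ^ (p ^ j) = f ((u : (FN N)ˣ) ^ (p ^ j))
  rw [map_pow]

theorem iota_mapW (f : (FN N)ˣ →* (FN N)ˣ) (hf : ∀ u ∈ kum N p, f u ∈ kum N p)
    (hf' : ∀ u ∈ kum N (p ^ (j + 1)), f u ∈ kum N (p ^ (j + 1))) (y : W N p) :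
    iota N p j (mapW f hf y) = mapW f hf' (iota N p j y) := by
  obtain ⟨u, rfl⟩ := cls_surjective y
  rw [mapW_cls, iota_cls, iota_cls, mapW_cls]
  refine congrArg cls (Subtype.ext ?_)
  show (f (u : (FN N)ˣ)) ^ (p ^ j) = f ((u : (FN N)ˣ) ^ (p ^ j))
  rw [map_pow]

theorem iota_rho (σ : E.GQ) (y : W N p) :
    iota N p j (rho N p σ y) = rho N (p ^ (j + 1)) σ (iota N p j y) :=
  iota_mapW j (galU N σ) (galU_mem_kum σ) (galU_mem_kum σ) y

theorem iota_TW {ℓ : ℕ} [NeZero ℓ] (H : HeckeOp N ℓ) (y : W N p) :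
    iota N p j (H.TW p y) = H.TW (p ^ (j + 1)) (iota N p j y) :=
  iota_mapW j H.TU (fun u hu => H.TU_mem_kum u hu) (fun u hu => H.TU_mem_kum u hu) y

section AL

variable {M q : ℕ} [NeZero M] [NeZero q] (D : ALData M q)

theorem iota_wW (y : W (M * q) p) :
    iota (M * q) p j (D.wW p y) = D.wW (p ^ (j + 1)) (iota (M * q) p j y) :=
  iota_mapW₂ j _ _ _ y

theorem iota_nmW (y : W (M * q) p) :
    iota M p j (D.nmW p y) = D.nmW (p ^ (j + 1)) (iota (M * q) p j y) :=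
  iota_mapW₂ j _ _ _ y

theorem iota_alW (y : W M p) :
    iota (M * q) p j (D.alW p y) = D.alW (p ^ (j + 1)) (iota M p j y) :=
  iota_mapW₂ j _ _ _ y

end AL

/-! ### the subgroups `K_∞` and `T` -/

variable {A : ValuationSubring Kbar}

theorem Cong1.pow' {u : FN N} (hu : Cong1 A N u) (m : ℕ) : Cong1 A N (u ^ m) := by
  induction m with
  | zero => simpa using Cong1.one (A := A) N
  | succ m ih => rw [pow_succ]; exact ih.mul hu

/-- In residue characteristic `p`: `t ^ (p ^ j) ≡ 1` implies `t ≡ 1`. -/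
theorem cong1_of_pow (hp : p.Prime) (hA : A.LiesOverPrime p) {t : FN N}
    (h : Cong1 A N (t ^ (p ^ j))) : Cong1 A N t := by
  have : Fact p.Prime := ⟨hp⟩
  have hchar : CharP (IsLocalRing.ResidueField A) p := charP_residueField A p hp hA
  have ht0 : t ≠ 0 := by
    rintro rfl
    rw [zero_pow (pow_pos hp.pos j).ne'] at h
    exact h.ne_zero rfl
  obtain ⟨c, r, hr⟩ := exists_redS hp hA t ht0
  have h1 : RedS A ((t ^ (p ^ j) : FN N) : LaurentSeries Kbar) (c ^ (p ^ j)) (r ^ (p ^ j)) :=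
    hr.pow (p ^ j)
  obtain ⟨a, ha1, ha2⟩ := h1.unique h.redS
  rw [mul_one] at ha1
  -- `c` is a unit of `A`
  have hcv : A.valuation c = 1 := by
    have h2 : A.valuation (c ^ (p ^ j)) = 1 := by
      rw [ha1]
      exact (A.valuation_eq_one_iff a.1).1 a.isUnit
    rw [map_pow] at h2
    exact (pow_eq_one_iff.mp h2).resolve_right (pow_pos hp.pos j).ne'
  have hcA : c ∈ A := (A.valuation_le_one_iff c).1 hcv.le
  have hcu : IsUnit (⟨c, hcA⟩ : A) := (A.valuation_eq_one_iff ⟨c, hcA⟩).2 hcv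
  obtain ⟨cu, hcu'⟩ := hcu
  have h3 := hr.rescale cu⁻¹
  have e1 : (((cu⁻¹ : Aˣ) : A) : Kbar) * c = 1 := by
    have : ((cu : A) : Kbar) = c := by rw [hcu']
    rw [← this, ← A.coe_mul, Units.inv_mul]
    rfl
  rw [e1, inv_inv] at h3
  set r' : LaurentSeries (IsLocalRing.ResidueField A) :=
    HahnSeries.C (IsLocalRing.residue A (cu : A)) * r with hr'
  have hpow : r' ^ (p ^ j) = 1 := by
    have e2 : (cu : A) ^ (p ^ j) = (a : A) := by
      apply Subtype.ext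
      rw [← ha1, hcu']
      rfl
    rw [hr', mul_pow, ← map_pow, ← map_pow, e2]
    exact ha2.symm
  have hr1 : r' = 1 := by
    have hcharL : CharP (LaurentSeries (IsLocalRing.ResidueField A)) p :=
      charP_of_injective_ringHom (HahnSeries.C_injective (Γ := ℤ)
        (R := IsLocalRing.ResidueField A)) p
    have h4 : (r' - 1) ^ (p ^ j) = 0 := by
      rw [sub_pow_char_pow, hpow, one_pow, sub_self]
    exact sub_eq_zero.1 (pow_eq_zero_iff (pow_pos hp.pos j).ne' |>.1 h4)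
  rw [hr1] at h3
  exact cong1_of_redS hp hA h3

theorem IsKinf.iota {y : W N p} (hy : IsKinf A y) : IsKinf A (iota N p j y) := by
  obtain ⟨u, rfl, hu⟩ := hy
  refine ⟨iotaK N p j u, (iota_cls j u).symm, ?_⟩
  rw [coe_iotaK]
  exact Cong1.pow' hu _

/-- a representative of `y` from a representative of `ι y` -/
theorem exists_rep_of_iota {y : W N p} {v : kum N (p ^ (j + 1))} (hv : cls v = iota N p j y) :
    ∃ t : kum N p, cls t = y ∧
      (((t : (FN N)ˣ) : FN N)) ^ (p ^ j) = ((v : (FN N)ˣ) : FN N) := by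
  obtain ⟨u, rfl⟩ := cls_surjective y
  rw [iota_cls] at hv
  obtain ⟨g, hg⟩ := exists_eq_mul_pow_of_cls_eq hv
  have hgk : g ^ p ∈ kum N p := pows_le_kum N p ⟨g, rfl⟩
  refine ⟨u * ⟨g ^ p, hgk⟩, ?_, ?_⟩
  · exact cls_eq_of_eq_mul_pow' g rfl
  · rw [hg]
    show (((u : (FN N)ˣ) * g ^ p : (FN N)ˣ) : FN N) ^ (p ^ j) =
      ((((u : (FN N)ˣ) ^ (p ^ j) * g ^ (p ^ (j + 1)) : (FN N)ˣ)) : FN N)
    rw [← Units.val_pow_eq_pow_val, mul_pow, ← pow_mul, ← pow_succ']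

theorem isKinf_of_iota (hp : p.Prime) (hA : A.LiesOverPrime p) {y : W N p}
    (hy : IsKinf A (iota N p j y)) : IsKinf A y := by
  obtain ⟨v, hv, hv1⟩ := hy
  obtain ⟨t, ht, htv⟩ := exists_rep_of_iota j hv
  exact ⟨t, ht, cong1_of_pow j hp hA (by rw [htv]; exact hv1)⟩

section AL

variable {M q : ℕ} [NeZero M] [NeZero q] (D : ALData M q)

theorem IsTor.iota {y : W (M * q) p} (hy : IsTor D A y) : IsTor D A (iota (M * q) p j y) := by
  obtain ⟨u, rfl, hu, hu'⟩ := hy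
  refine ⟨iotaK (M * q) p j u, (iota_cls j u).symm, ?_, ?_⟩
  · rw [coe_iotaK]
    exact Cong1.pow' hu _
  · rw [coe_iotaK, map_pow]
    exact Cong1.pow' hu' _

theorem isTor_of_iota (hp : p.Prime) (hA : A.LiesOverPrime p) {y : W (M * q) p}
    (hy : IsTor D A (iota (M * q) p j y)) : IsTor D A y := by
  obtain ⟨v, hv, hv1, hv2⟩ := hy
  obtain ⟨t, ht, htv⟩ := exists_rep_of_iota j hv
  refine ⟨t, ht, cong1_of_pow j hp hA (by rw [htv]; exact hv1),
    cong1_of_pow j hp hA (by rw [← map_pow, htv]; exact hv2)⟩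

end AL

end Fermat.Agent.S33.Mid

end
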