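/-
S33, middle layer (helper45): the three geometric nodes, transported along
`ι : W N p → W N (p ^ (j + 1))` to the `p`-torsion of the Kummer models at exponent `p ^ (j + 1)`,
in the shape of the hypotheses `hnew`, `hold1`, `hold2` of `Mid.fixed_eq_zero`.
-/
import Fermat.Agent.S33.Mid.Iota
import Fermat.Agent.S33.Mid.Nodes

set_option autoImplicit false

noncomputable section

namespace Fermat.Agent.S33.Mid

open Fermat.Agent.S24 Fermat.Agent.GAL Fermat.Agent.GAL.E Fermat.Agent.C1 Fermat.Agent.S30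

variable {M p : ℕ} [NeZero p]

theorem NodeOld1.layer (h : NodeOld1 M p) (hp : p.Prime) (j : ℕ) (A : ValuationSubring Kbar)
    (hA : A.LiesOverPrime p) (Hp : HeckeOp M p) (Z : AddSubgroup (W M (p ^ (j + 1))))
    (hZ : ∀ z ∈ Z, IsKinf A z ∧ p • z = 0) (hZT : ∀ z ∈ Z, Hp.TW (p ^ (j + 1)) z ∈ Z)
    (hinj : ∀ z ∈ Z, Hp.TW (p ^ (j + 1)) z = 0 → z = 0)
    (s : E.GQ) (hs : s ∈ A.inertiaSubgroupIn ℚ) (a : ℕ) (ha : IsCyc p 1 s a)
    (hne : ¬ a ≡ 1 [MOD p]) (z : W M (p ^ (j + 1))) (hz : z ∈ Z)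
    (hfix : rho M (p ^ (j + 1)) s z = z) : z = 0 := by
  obtain ⟨y, rfl⟩ := exists_iota_eq j hp.pos z (hZ z hz).2
  have hy : y = 0 := by
    refine h A hA Hp (Z.comap (iota M p j)) ?_ ?_ ?_ s hs a ha hne y
      (AddSubgroup.mem_comap.2 hz) ?_
    · intro y hy
      exact isKinf_of_iota j hp hA (hZ _ hy).1
    · intro y hy
      show iota M p j (Hp.TW p y) ∈ Z
      rw [iota_TW]
      exact hZT _ hy
    · intro y hy hT
      apply iota_injective j hp.pos
      rw [map_zero]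
      apply hinj _ hy
      rw [← iota_TW, hT, map_zero]
    · apply iota_injective j hp.pos
      rw [iota_rho, hfix]
  rw [hy, map_zero]

theorem NodeOld2.layer (h : NodeOld2 M p) (hp : p.Prime) (j : ℕ) (A : ValuationSubring Kbar)
    (hA : A.LiesOverPrime p) (Hp : HeckeOp M p) (z : W M (p ^ (j + 1))) (hzK : IsKinf A z)
    (hpz : p • z = 0)
    (hz : ∀ σ : E.GQ, σ ∈ A.inertiaSubgroupIn ℚ → ∀ a : ℕ, IsCyc p 1 σ a →
      rho M (p ^ (j + 1)) σ z = a • z)
    (hT : Hp.TW (p ^ (j + 1)) z = 0) : z = 0 := by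
  obtain ⟨y, rfl⟩ := exists_iota_eq j hp.pos z hpz
  have hy : y = 0 := by
    refine h A hA Hp y (isKinf_of_iota j hp hA hzK) ?_ ?_
    · intro σ hσ a ha
      apply iota_injective j hp.pos
      rw [iota_rho, hz σ hσ a ha, map_nsmul]
    · apply iota_injective j hp.pos
      rw [iota_TW, hT, map_zero]
  rw [hy, map_zero]

theorem NodeNew.layer [NeZero M] (h : NodeNew M p) (hp : p.Prime) (j : ℕ) (D : ALData M p)
    (A : ValuationSubring Kbar) (hA : A.LiesOverPrime p) (x : W (M * p) (p ^ (j + 1)))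
    (hx : IsTor D A x) (hpx : p • x = 0) (h1 : D.nmW (p ^ (j + 1)) x = 0)
    (h2 : D.nmW (p ^ (j + 1)) (D.wW (p ^ (j + 1)) x) = 0)
    (s : E.GQ) (hs : s ∈ A.inertiaSubgroupIn ℚ) (a : ℕ) (ha : IsCyc p 1 s a)
    (hne : ¬ a ≡ 1 [MOD p]) (hfix : rho (M * p) (p ^ (j + 1)) s x = x) : x = 0 := by
  obtain ⟨y, rfl⟩ := exists_iota_eq j hp.pos x hpx
  have hy : y = 0 := by
    refine h D A hA y (isTor_of_iota j D hp hA hx) ?_ ?_ s hs a ha hne ?_
    · apply iota_injective j hp.pos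
      rw [iota_nmW, h1, map_zero]
    · apply iota_injective j hp.pos
      rw [iota_nmW, iota_wW, h2, map_zero]
    · apply iota_injective j hp.pos
      rw [iota_rho, hfix]
  rw [hy, map_zero]

end Fermat.Agent.S33.Mid

end
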