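/-
S33, middle layer (helper45): the subgroups `Kinf A N n` (classes `≡ 1` at `v_∞`) and
`Ktor D A n` (classes `≡ 1` at `v_∞` and at `v_0`) of the Kummer models, and their stability
properties: decomposition group, inertia, Atkin-Lehner involution, norms, Hecke operators.
-/
import Fermat.Agent.C1.Main
import Fermat.Agent.C1.HeckeStable
import Fermat.Agent.C1.KumW

set_option autoImplicit false

noncomputable section

namespace Fermat.Agent.S33.Mid

open ModularCurve AlgebraicCurve Fermat.Agent.S24 Fermat.Agent.S24.B Fermat.Agent.GAL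
  Fermat.Agent.GAL.E Fermat.Agent.C1

variable {A : ValuationSubring Kbar} {N n : ℕ}

/-- The decomposition group preserves `≡ 1`. -/
theorem Cong1.galF_decomp {g : E.GQ} (hg : g ∈ A.decompositionSubgroup ℚ) {u : FN N}
    (hu : Cong1 A N u) : Cong1 A N (galF N g u) := by
  obtain ⟨P, Q, hP, hQ, hPQ, hQ0, rfl⟩ := hu
  set γ : A.decompositionSubgroup ℚ := ⟨g, hg⟩ with hγ
  have eP : incl A (coeffMap (decompHom A γ) P) =
      ((galF N g ⟨incl A P, hP⟩ : FN N) : LaurentSeries Kbar) := by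
    rw [incl_decompHom, coe_galF]
  have eQ : incl A (coeffMap (decompHom A γ) Q) =
      ((galF N g ⟨incl A Q, hQ⟩ : FN N) : LaurentSeries Kbar) := by
    rw [incl_decompHom, coe_galF]
  refine ⟨coeffMap (decompHom A γ) P, coeffMap (decompHom A γ) Q, by rw [eP]; exact Subtype.property _,
    by rw [eQ]; exact Subtype.property _, ?_, ?_, ?_⟩
  · ext k
    rw [coeff_red_decompHom, coeff_red_decompHom]
    have := congrArg (fun x => HahnSeries.coeff x k) hPQ
    simp only [coeffMap_coeff] at this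
    rw [this]
  · intro h0
    apply hQ0
    ext k
    have := congrArg (fun x => HahnSeries.coeff x k) h0
    rw [coeff_red_decompHom, HahnSeries.coeff_zero] at this
    rw [coeffMap_coeff, HahnSeries.coeff_zero]
    exact (smul_eq_zero_iff_eq γ).1 this
  · rw [map_div₀]
    congr 1

theorem IsKinf.rho_decomp {g : E.GQ} (hg : g ∈ A.decompositionSubgroup ℚ) {x : W N n}
    (hx : IsKinf A x) : IsKinf A (rho N n g x) := by
  obtain ⟨u, rfl, hu⟩ := hx
  exact ⟨_, (rho_cls g u).symm, Cong1.galF_decomp hg hu⟩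

variable (A N n)

/-- The subgroup of the classes `≡ 1` at `v_∞`. -/
def Kinf : AddSubgroup (W N n) where
  carrier := {x | IsKinf A x}
  zero_mem' := IsKinf.zero
  add_mem' := fun hx hy => IsKinf.add hx hy
  neg_mem' := fun hx => IsKinf.neg hx

variable {A N n}

theorem mem_Kinf {x : W N n} : x ∈ Kinf A N n ↔ IsKinf A x := Iff.rfl

section AL

variable {M q : ℕ} [NeZero M] [NeZero q] (D : ALData M q)

/-- The subgroup of the classes `≡ 1` at `v_∞` and at `v_0`. -/
def Ktor (D : ALData M q) (A : ValuationSubring Kbar) (n : ℕ) : AddSubgroup (W (M * q) n) where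
  carrier := {x | IsKinf A x ∧ IsKinf A (D.wW n x)}
  zero_mem' := ⟨IsKinf.zero, by rw [map_zero]; exact IsKinf.zero⟩
  add_mem' := fun hx hy => ⟨hx.1.add hy.1, by rw [map_add]; exact hx.2.add hy.2⟩
  neg_mem' := fun hx => ⟨hx.1.neg, by rw [map_neg]; exact hx.2.neg⟩

theorem mem_Ktor {x : W (M * q) n} : x ∈ Ktor D A n ↔ IsKinf A x ∧ IsKinf A (D.wW n x) := Iff.rfl

theorem isTor_of_mem_Ktor (hq : q.Prime) (hA : A.LiesOverPrime q) {x : W (M * q) n}
    (hx : x ∈ Ktor D A n) : IsTor D A x :=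
  isTor_of_isKinf D hq hA hx.1 hx.2

theorem wW_mem_Ktor (hq : q.Prime) {x : W (M * q) n} (hx : x ∈ Ktor D A n) :
    D.wW n x ∈ Ktor D A n :=
  ⟨hx.2, by rw [D.wW_wW n hq]; exact hx.1⟩

theorem rho_mem_Ktor (hq : q.Prime) {g : E.GQ} (hg : g ∈ A.decompositionSubgroup ℚ)
    {x : W (M * q) n} (hx : x ∈ Ktor D A n) : rho (M * q) n g x ∈ Ktor D A n :=
  ⟨IsKinf.rho_decomp hg hx.1, by rw [D.wW_rho n hq]; exact IsKinf.rho_decomp hg hx.2⟩

theorem rho_sub_mem_Ktor [NeZero n] (hq : q.Prime) (hA : A.LiesOverPrime q) {τ : E.GQ}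
    (hτ : τ ∈ A.inertiaSubgroupIn ℚ) (x : W (M * q) n) :
    rho (M * q) n τ x - x ∈ Ktor D A n :=
  ⟨isKinf_rho_sub hq hA τ hτ x, by
    have e : D.wW n (rho (M * q) n τ x - x) = D.wW n (rho (M * q) n τ x) - D.wW n x :=
      map_sub (D.wW n) _ _
    rw [e, D.wW_rho n hq]; exact isKinf_rho_sub hq hA τ hτ _⟩

/-- The norm maps `T` into `K_∞`. -/
theorem nmW_mem_Kinf (hq : q.Prime) (hA : A.LiesOverPrime q) {x : W (M * q) n}
    (hx : x ∈ Ktor D A n) : D.nmW n x ∈ Kinf A M n := by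
  have : Fact q.Prime := ⟨hq⟩
  have := charP_residueField A q hq hA
  obtain ⟨u, rfl, hu, hu'⟩ := isTor_of_mem_Ktor D hq hA hx
  refine ⟨_, (mapW₂_cls _ _ u).symm, ?_⟩
  apply cong1_of_redS hq hA
  have h := D.redS_nm hA _ hu.redS hu'.redS
  rw [one_pow, mul_one, map_one, mul_one] at h
  exact h

end AL

end Fermat.Agent.S33.Mid

end
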