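/-
S33, middle layer (helper45): (M5) + final assembly of the middle layer.

`ordinaryAt'_utowerE` : the fixed-vector contract `OrdinaryAt'` for the concrete universal tower
`GAL.utowerE` of level `M * p`, from the three geometric nodes `NodeOld1 M p`, `NodeOld2 M p`,
`NodeNew M p` and the residual ordinarity.
-/
import Fermat.Agent.S33.Mid.IotaNodes
import Fermat.Agent.S33.Mid.KSub
import Fermat.Agent.S33.Mid.Idem
import Fermat.Agent.S33.Mid.Eigen
import Fermat.Agent.S33.Mid.Res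
import Fermat.Agent.C1.Glue
import Fermat.Agent.GAL.TowerE

set_option autoImplicit false
set_option linter.unusedSectionVars false

noncomputable section

namespace Fermat.Agent.S33.Mid

open IsLocalRing CuspForm Fermat.Agent.S24 Fermat.Agent.S30 Fermat.Agent.S31 Fermat.Agent.GAL
  Fermat.Agent.C1

section Transport

variable (hKL : KLStatement) {N N' p : ℕ} [NeZero N] [NeZero N'] (hp : p.Prime) (S : Finset ℕ)
  (hNS : ∀ q : ℕ, q.Prime → q ∣ N → q ∈ S) (hNS' : ∀ q : ℕ, q.Prime → q ∣ N' → q ∈ S)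
  (hpS : p ∈ S) {HF : E.HeckeFam N} (md : ∀ k : ℕ, MultData N HF (p ^ k))
  {HF' : E.HeckeFam N'} (md' : ∀ k : ℕ, MultData N' HF' (p ^ k))

theorem utowerE_bad (k : ℕ) (ℓ : ℕ) (h : ¬ (ℓ.Prime ∧ ℓ ∉ S))
    (w : (utowerE hKL hp S hNS hpS md).W k) : (MvPolynomial.X ℓ : HA) • w = 0 :=
  utowerE_X_smul_of_bad hKL hp S hNS hpS md k
    (fun h' => h ⟨h'.1, fun hS => h'.2.2 (by simpa using hS)⟩) w

/-- A Galois equivariant additive map between Kummer models, transported to the towers: it is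
linear over the abstract Hecke algebra. -/
def trLin (k : ℕ) (f : E.W N (p ^ k) →+ E.W N' (p ^ k))
    (hf : ∀ (σ : GQ) (x : E.W N (p ^ k)),
      f (E.rho N (p ^ k) σ x) = E.rho N' (p ^ k) σ (f x)) :
    (utowerE hKL hp S hNS hpS md).W k →ₗ[HA] (utowerE hKL hp S hNS' hpS md').W k :=
  let F : (utowerE hKL hp S hNS hpS md).W k →+ (utowerE hKL hp S hNS' hpS md').W k :=
    ((utowerE_emb hKL hp S hNS' hpS md' k).toAddMonoidHom.comp f).comp
      (utowerE_emb hKL hp S hNS hpS md k).symm.toAddMonoidHom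
  { toFun := F
    map_add' := map_add F
    map_smul' := fun P x => by
      refine map_smul_of_equivariant (utowerE hKL hp S hNS hpS md)
        (utowerE hKL hp S hNS' hpS md') k (utowerE_bad hKL hp S hNS hpS md k)
        (utowerE_bad hKL hp S hNS' hpS md' k) F ?_ P x
      intro σ x
      obtain ⟨y, rfl⟩ := (utowerE_emb hKL hp S hNS hpS md k).surjective x
      show utowerE_emb hKL hp S hNS' hpS md' k (f ((utowerE_emb hKL hp S hNS hpS md k).symm _)) =
        (utowerE hKL hp S hNS' hpS md').ρ k σ (utowerE_emb hKL hp S hNS' hpS md' k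
          (f ((utowerE_emb hKL hp S hNS hpS md k).symm _)))
      rw [utowerE_ρ_emb, AddEquiv.symm_apply_apply, AddEquiv.symm_apply_apply, hf,
        utowerE_ρ_emb] }

theorem trLin_emb (k : ℕ) (f : E.W N (p ^ k) →+ E.W N' (p ^ k))
    (hf : ∀ (σ : GQ) (x : E.W N (p ^ k)),
      f (E.rho N (p ^ k) σ x) = E.rho N' (p ^ k) σ (f x)) (y : E.W N (p ^ k)) :
    trLin hKL hp S hNS hNS' hpS md md' k f hf (utowerE_emb hKL hp S hNS hpS md k y) =
      utowerE_emb hKL hp S hNS' hpS md' k (f y) := by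
  show utowerE_emb hKL hp S hNS' hpS md' k (f ((utowerE_emb hKL hp S hNS hpS md k).symm _)) = _
  rw [AddEquiv.symm_apply_apply]

end Transport

section Main

variable {M p : ℕ} [NeZero M] [NeZero p] {S : Finset ℕ}
  {𝒪 : Type} [CommRing 𝒪] [IsDomain 𝒪] [IsDiscreteValuationRing 𝒪]
  [IsAdicComplete (IsLocalRing.maximalIdeal 𝒪) 𝒪]
  {θ : CuspForm.heckeAlgebra (M * p) 2 (↑S : Set ℕ) →+* IsLocalRing.ResidueField 𝒪}
  {T : Type} [CommRing T] [IsLocalRing T] [IsNoetherianRing T]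
  [IsAdicComplete (IsLocalRing.maximalIdeal T) T] [Algebra 𝒪 T] [IsLocalHom (algebraMap 𝒪 T)]
  [Module.Finite 𝒪 T] [Module.Free 𝒪 T]

variable (hKL : KLStatement) (hp : p.Prime)
  (hNS : ∀ q : ℕ, q.Prime → q ∣ M * p → q ∈ S) (hNS' : ∀ q : ℕ, q.Prime → q ∣ M → q ∈ S)
  (hpS : p ∈ S) {HF : E.HeckeFam (M * p)} (md : ∀ k : ℕ, MultData (M * p) HF (p ^ k))
  {HF' : E.HeckeFam M} (md' : ∀ k : ℕ, MultData M HF' (p ^ k))

local notation "UU" => utowerE hKL hp S hNS hpS md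
local notation "UU'" => utowerE hKL hp S hNS' hpS md'
local notation "ee" => utowerE_emb hKL hp S hNS hpS md
local notation "ee'" => utowerE_emb hKL hp S hNS' hpS md'

include hNS' md' in
/-- **The fixed-vector statement (iii') on the Kummer model of level `M p`, exponent
`p ^ (j + 1)`.** -/
theorem fix_layer [Finite (IsLocalRing.ResidueField 𝒪)]
    (hp𝒪 : (p : 𝒪) ∈ IsLocalRing.maximalIdeal 𝒪)
    (H : CuspForm.HeckeGaloisRepDatum (M * p) (↑S : Set ℕ) 𝒪 θ T)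
    (hres : (GaloisRepAdic.ofResidualGaloisRep H.ρ.residual).IsOrdinaryAt p)
    (n1 : NodeOld1 M p) (n2 : NodeOld2 M p) (n3 : NodeNew M p) (D : ALData M p)
    (Hp : E.HeckeOp M p) (P : ValuationSubring Kbar) (hP : P.LiesOverPrime p) (j : ℕ)
    (x : E.W (M * p) (p ^ (j + 1))) (hx : x ∈ Ktor D P (p ^ (j + 1))) (hpx : p • x = 0)
    (hprim : IsPrim (θ.comp (evHA (M * p) S)) (ee (j + 1) x))
    (s : GQ) (hs : s ∈ P.inertiaSubgroupIn ℚ) (a : ℕ) (ha : IsCyc p 1 s a)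
    (hne : ¬ a ≡ 1 [MOD p]) (hfix : E.rho (M * p) (p ^ (j + 1)) s x = x) : x = 0 := by
  have : Fact p.Prime := ⟨hp⟩
  have : NeZero (p ^ (j + 1)) := ⟨(pow_pos hp.pos _).ne'⟩
  have hfin : Finite ((UU').W (j + 1)) := utowerE_finite hKL hp S hNS' hpS md' (j + 1)
  set ν₁ := trLin hKL hp S hNS hNS' hpS md md' (j + 1) (D.nmW (p ^ (j + 1)))
    (fun σ x => D.nmW_rho (p ^ (j + 1)) hp σ x) with hν₁def
  set ν₂ := trLin hKL hp S hNS hNS' hpS md md' (j + 1)
    ((D.nmW (p ^ (j + 1))).comp (D.wW (p ^ (j + 1))))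
    (fun σ x => by
      show D.nmW _ (D.wW _ _) = E.rho M _ σ (D.nmW _ (D.wW _ x))
      rw [D.wW_rho (p ^ (j + 1)) hp, D.nmW_rho (p ^ (j + 1)) hp]) with hν₂def
  set Tp := trLin hKL hp S hNS' hNS' hpS md' md' (j + 1) (Hp.TW (p ^ (j + 1)))
    (fun σ x => (DFunLike.congr_fun (Hp.commute_rho_TW (p ^ (j + 1)) σ).eq x).symm) with hTpdef
  have eν₁ : ∀ y, ν₁ (ee (j + 1) y) = ee' (j + 1) (D.nmW (p ^ (j + 1)) y) := fun y =>
    trLin_emb hKL hp S hNS hNS' hpS md md' (j + 1) _ _ y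
  have eν₂ : ∀ y, ν₂ (ee (j + 1) y) =
      ee' (j + 1) (D.nmW (p ^ (j + 1)) (D.wW (p ^ (j + 1)) y)) := fun y =>
    trLin_emb hKL hp S hNS hNS' hpS md md' (j + 1) _ _ y
  have eTp : ∀ y, Tp (ee' (j + 1) y) = ee' (j + 1) (Hp.TW (p ^ (j + 1)) y) := fun y =>
    trLin_emb hKL hp S hNS' hNS' hpS md' md' (j + 1) _ _ y
  have eρ : ∀ (σ : GQ) y, (UU).ρ (j + 1) σ (ee (j + 1) y) =
      ee (j + 1) (E.rho (M * p) (p ^ (j + 1)) σ y) := fun σ y =>
    utowerE_ρ_emb hKL hp S hNS hpS md (j + 1) σ y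
  have eρ' : ∀ (σ : GQ) y, (UU').ρ (j + 1) σ (ee' (j + 1) y) =
      ee' (j + 1) (E.rho M (p ^ (j + 1)) σ y) := fun σ y =>
    utowerE_ρ_emb hKL hp S hNS' hpS md' (j + 1) σ y
  have key := fixed_eq_zero hp (θ.comp (evHA (M * p) S)) ((UU).ρ (j + 1)) ((UU').ρ (j + 1))
    ν₁ ν₂ ?_ ?_ Tp ?_ ((Ktor D P (p ^ (j + 1))).map (ee (j + 1)).toAddMonoidHom)
    ((Kinf P M (p ^ (j + 1))).map (ee' (j + 1)).toAddMonoidHom) ?_ ?_ ?_
    (P.inertiaSubgroupIn ℚ) (IsCyc p 1) ?_ ?_ ?_ ?_ ?_ (ee (j + 1) x) ⟨x, hx, rfl⟩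
    (by rw [← map_nsmul, hpx, map_zero]) hprim s hs a ha hne (by rw [eρ, hfix])
  · exact (ee (j + 1)).injective (by rw [key, map_zero])
  · -- hν₁
    intro g x
    obtain ⟨y, rfl⟩ := (ee (j + 1)).surjective x
    rw [eρ, eν₁, eν₁, eρ', D.nmW_rho (p ^ (j + 1)) hp]
  · -- hν₂
    intro g x
    obtain ⟨y, rfl⟩ := (ee (j + 1)).surjective x
    rw [eρ, eν₂, eν₂, eρ', D.wW_rho (p ^ (j + 1)) hp, D.nmW_rho (p ^ (j + 1)) hp]
  · -- hTp
    intro g z
    obtain ⟨y, rfl⟩ := (ee' (j + 1)).surjective z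
    rw [eρ', eTp, eTp, eρ']
    exact congrArg _ (DFunLike.congr_fun (Hp.commute_rho_TW (p ^ (j + 1)) g).eq y).symm
  · -- hK₁
    rintro _ ⟨y, hy, rfl⟩
    exact ⟨_, nmW_mem_Kinf D hp hP hy, (eν₁ y).symm⟩
  · -- hK₂
    rintro _ ⟨y, hy, rfl⟩
    exact ⟨_, nmW_mem_Kinf D hp hP (wW_mem_Ktor D hp hy), (eν₂ y).symm⟩
  · -- hTK
    rintro _ ⟨y, hy, rfl⟩
    exact ⟨_, IsKinf.TW hp hP Hp hy, (eTp y).symm⟩
  · -- hsub'
    intro σ hσ z
    obtain ⟨y, rfl⟩ := (ee' (j + 1)).surjective z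
    rw [eρ', ← map_sub]
    exact ⟨_, isKinf_rho_sub hp hP σ hσ y, rfl⟩
  · -- hnew
    rintro _ ⟨y, hy, rfl⟩ hpy h1 h2 s hs a ha hne hfix
    have hy0 : y = 0 := by
      refine n3.layer hp j D P hP y (isTor_of_mem_Ktor D hp hP hy) ?_ ?_ ?_ s hs a ha hne ?_
      · exact (ee (j + 1)).injective (by rw [map_nsmul, map_zero]; exact hpy)
      · exact (ee' (j + 1)).injective (by rw [map_zero, ← eν₁]; exact h1)
      · exact (ee' (j + 1)).injective (by rw [map_zero, ← eν₂]; exact h2)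
      · exact (ee (j + 1)).injective (by rw [← eρ]; exact hfix)
    rw [hy0]
    exact map_zero _
  · -- hold1
    intro Z hZ hZT hZi s hs a ha hne z hz hfix
    obtain ⟨y, rfl⟩ := (ee' (j + 1)).surjective z
    have hy0 : y = 0 := by
      refine n1.layer hp j P hP Hp (Z.comap (ee' (j + 1)).toAddMonoidHom) ?_ ?_ ?_ s hs a ha hne y
        (AddSubgroup.mem_comap.2 hz) ?_
      · intro y hy
        obtain ⟨⟨y', hy', he⟩, hpy⟩ := hZ _ (AddSubgroup.mem_comap.1 hy)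
        have : y' = y := (ee' (j + 1)).injective he
        subst this
        exact ⟨hy', (ee' (j + 1)).injective (by rw [map_nsmul, map_zero]; exact hpy)⟩
      · intro y hy
        rw [AddSubgroup.mem_comap]
        have := hZT _ (AddSubgroup.mem_comap.1 hy)
        rw [AddEquiv.coe_toAddMonoidHom, eTp] at this
        exact this
      · intro y hy hT
        have := hZi _ (AddSubgroup.mem_comap.1 hy)
          (by rw [AddEquiv.coe_toAddMonoidHom, eTp, hT, map_zero])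
        exact (ee' (j + 1)).injective (by rw [map_zero]; exact this)
      · exact (ee' (j + 1)).injective (by rw [← eρ']; exact hfix)
    rw [hy0, map_zero]
  · -- hold2
    rintro _ ⟨y, hy, rfl⟩ hpy hσ hT
    have hy0 : y = 0 := by
      refine n2.layer hp j P hP Hp y hy ?_ ?_ ?_
      · exact (ee' (j + 1)).injective (by rw [map_nsmul, map_zero]; exact hpy)
      · intro σ hσI b hb
        exact (ee' (j + 1)).injective (by rw [← eρ', map_nsmul]; exact hσ σ hσI b hb)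
      · exact (ee' (j + 1)).injective (by rw [map_zero, ← eTp]; exact hT)
    rw [hy0]
    exact map_zero _
  · -- hiso
    intro Y hY hYp hY0
    refine exists_eigen (θ.comp (evHA (M * p) S)) (psiRes H) (psiRes_eq_zero_iff H)
      ((UU').ρ (j + 1)) (P.inertiaSubgroupIn ℚ) (tauRes H) s hs a ha hne
      (fun σ hσ b hb => tauRes_inertia hp𝒪 hpS hNS H hres hP hσ hb)
      (fun σ hσ g => tauRes_rel hp𝒪 hpS hNS H hres hP hs ha hσ g) (tauRes_noncomm H)
      Y hY hYp hY0 ?_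
    intro g b hb
    obtain ⟨bk, hbk⟩ := exists_isCyc p (j + 1) g
    obtain ⟨Q, hQ, hψ⟩ := exists_rep' hpS hNS H (UU') (j + 1) g bk hbk
    refine ⟨Q, fun v hv => ?_, hψ⟩
    rw [← hQ v]
    congr 1
    have h1 := hb.modEq (hbk.mono (Nat.le_add_left 1 j))
    rw [pow_one] at h1
    exact nsmul_eq_of_modEq h1 _ (hYp _ (hY g⁻¹ v hv)).1

include hNS' md' in
/-- **(M5)/(M6)** The fixed-vector contract `OrdinaryAt'` for the concrete universal tower of level
`M p`, from the three geometric nodes. -/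
theorem ordinaryAt'_utowerE [Finite (IsLocalRing.ResidueField 𝒪)]
    (hp𝒪 : (p : 𝒪) ∈ IsLocalRing.maximalIdeal 𝒪)
    (H : CuspForm.HeckeGaloisRepDatum (M * p) (↑S : Set ℕ) 𝒪 θ T)
    (hres : (GaloisRepAdic.ofResidualGaloisRep H.ρ.residual).IsOrdinaryAt p)
    (n1 : NodeOld1 M p) (n2 : NodeOld2 M p) (n3 : NodeNew M p) (D : ALData M p)
    (Hp : E.HeckeOp M p) : OrdinaryAt' (UU) (θ.comp (evHA (M * p) S)) := by
  intro P hP k
  rcases k with _ | j
  · have h0 : ∀ w : (UU).W 0, w = 0 := fun w => by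
      have := (UU).pow_smul 0 w
      rwa [pow_zero, one_smul] at this
    refine ⟨1, ⊥, ?_, fun Q _ w => ⟨0, h0 _⟩, fun g _ x _ => ?_, fun σ _ w => ?_,
      fun s _ a _ _ x _ _ _ _ => h0 x⟩
    · rw [map_one]; exact one_ne_zero
    · rw [h0 ((UU).ρ 0 g x)]; exact zero_mem _
    · rw [h0 ((UU).ρ 0 σ ((1 : HA) • w) - (1 : HA) • w)]; exact zero_mem _
  · have : NeZero (p ^ (j + 1)) := ⟨(pow_pos hp.pos _).ne'⟩
    have hfin : Finite ((UU).W (j + 1)) := utowerE_finite hKL hp S hNS hpS md (j + 1)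
    obtain ⟨Eid, hE, hprim⟩ := exists_idem (θ.comp (evHA (M * p) S)) ((UU).W (j + 1))
    have eρ : ∀ (σ : GQ) y, (UU).ρ (j + 1) σ (ee (j + 1) y) =
        ee (j + 1) (E.rho (M * p) (p ^ (j + 1)) σ y) := fun σ y =>
      utowerE_ρ_emb hKL hp S hNS hpS md (j + 1) σ y
    refine ⟨Eid, (Ktor D P (p ^ (j + 1))).map (ee (j + 1)).toAddMonoidHom, hE,
      fun Q hQ w => hprim w Q hQ, ?_, ?_, ?_⟩
    · rintro g hg _ ⟨y, hy, rfl⟩
      exact ⟨_, rho_mem_Ktor D hp hg hy, (eρ g y).symm⟩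
    · intro σ hσ w
      obtain ⟨y, hy⟩ := (ee (j + 1)).surjective (Eid • w)
      rw [← hy, eρ, ← map_sub]
      exact ⟨_, rho_sub_mem_Ktor D hp hP hσ y, rfl⟩
    · rintro s hs a ha hne _ ⟨y, hy, rfl⟩ hpy ⟨w, hw⟩ hfix
      have hy0 : y = 0 := by
        refine fix_layer hKL hp hNS hNS' hpS md md' hp𝒪 H hres n1 n2 n3 D Hp P hP j y hy ?_ ?_
          s hs a ha hne ?_
        · exact (ee (j + 1)).injective (by rw [map_nsmul, map_zero]; exact hpy)
        · have := hprim w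
          rw [← hw] at this
          exact this
        · exact (ee (j + 1)).injective (by rw [← eρ]; exact hfix)
      rw [hy0]
      exact map_zero _

end Main

end Fermat.Agent.S33.Mid

end
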