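/-
S33 (helper45): final wiring.

`result_of_nodes` : the frozen statement S33 from the three geometric nodes
`NodeOld1 M p`, `NodeOld2 M p`, `NodeNew M p` (`S33/Mid/Nodes.lean`) for all `M` prime to the odd
prime `p`.  Everything else (universal tower, multiplier data, Atkin-Lehner data, Hecke operator at
`p`, the cyclotomic character on inertia, Kronecker-type statement `KLStatement`) is unconditional.
-/
import Fermat.Agent.S33.Mid.Main
import Fermat.Agent.S33.Top2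
import Fermat.Agent.S33.InertiaCyclo
import Fermat.Agent.GAL.ModelFinal
import Fermat.Agent.C1.Mod.Main

set_option autoImplicit false

namespace Fermat.Agent.S33.Mid

open Fermat.Agent.GAL Fermat.Agent.C1

/-- The three geometric nodes, for all levels. -/
def NodesStatement : Prop :=
  ∀ (M p : ℕ) [NeZero M] [NeZero p], p.Prime → p ≠ 2 → ¬ p ∣ M →
    NodeOld1 M p ∧ NodeOld2 M p ∧ NodeNew M p

variable {p : ℕ} {N : ℕ} [NeZero N] {S : Finset ℕ}
  {𝒪 : Type} [CommRing 𝒪] [IsDomain 𝒪] [IsDiscreteValuationRing 𝒪]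
  [IsAdicComplete (IsLocalRing.maximalIdeal 𝒪) 𝒪]
  {θ : CuspForm.heckeAlgebra N 2 (↑S : Set ℕ) →+* IsLocalRing.ResidueField 𝒪}
  {T : Type} [CommRing T] [IsLocalRing T] [IsNoetherianRing T]
  [IsAdicComplete (IsLocalRing.maximalIdeal T) T] [Algebra 𝒪 T] [IsLocalHom (algebraMap 𝒪 T)]
  [Module.Finite 𝒪 T] [Module.Free 𝒪 T]

/-- **S33 from the three geometric nodes.** -/
theorem result_of_nodes (hnodes : NodesStatement)
    [Finite (IsLocalRing.ResidueField 𝒪)]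
    (hp : p.Prime) (hp2 : p ≠ 2) (hp𝒪 : (p : 𝒪) ∈ IsLocalRing.maximalIdeal 𝒪)
    (hN : p ∣ N ∧ ¬ p ^ 2 ∣ N)
    (hNS : ∀ q : ℕ, q.Prime → q ∣ N → q ∈ S)
    (H : CuspForm.HeckeGaloisRepDatum N (↑S : Set ℕ) 𝒪 θ T)
    (hres : (GaloisRepAdic.ofResidualGaloisRep H.ρ.residual).IsOrdinaryAt p) :
    H.ρ.IsOrdinaryAt p := by
  obtain ⟨⟨M, hM⟩, hN2⟩ := hN
  rw [mul_comm] at hM
  subst hM
  have hM0 : NeZero M := ⟨fun h => NeZero.ne (M * p) (by rw [h, zero_mul])⟩
  have hp0 : NeZero p := ⟨hp.ne_zero⟩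
  have hpM : ¬ p ∣ M := fun h => hN2 (by rw [pow_two]; exact mul_dvd_mul_right h p)
  have hpS : p ∈ S := hNS p hp (dvd_mul_left p M)
  have hNS' : ∀ q : ℕ, q.Prime → q ∣ M → q ∈ S := fun q hq hqM => hNS q hq (hqM.mul_right p)
  obtain ⟨n1, n2, n3⟩ := hnodes M p hp hp2 hpM
  obtain ⟨D⟩ := nonempty_alData M p hp hpM
  obtain ⟨Hp⟩ := E.nonempty_heckeOp M p hp hpM
  exact result_of_utower' hp hp𝒪 hpS hNS H hres _ (inertiaCyclo hp hp2)
    (ordinaryAt'_utowerE klStatement hp hNS hNS' hpS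
      (fun k => multDataFinal (M * p) (p ^ k) (pow_pos hp.pos k))
      (fun k => multDataFinal M (p ^ k) (pow_pos hp.pos k)) hp𝒪 H hres n1 n2 n3 D Hp)

end Fermat.Agent.S33.Mid
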