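/-
S33 (integrator helper280): variant of `Mid/NodesFinal.lean` in which the provider `New.NodalEQ M p` is
only asked for the levels where the good bases of `BAD.LevelQ.Mod.exists_good_base` exist
(`5 ≤ p`, or `p = 3` and `2 ∣ M`), instead of `Nonempty (S18.BaseData M p)`.
-/
import Fermat.Agent.S33.Mid.NodesFinal

set_option autoImplicit false

namespace Fermat.Agent.S33.Mid

open Fermat.Agent.GAL Fermat.Agent.C1

/-- What the nodal core has to deliver (second shape). -/
def NodalEQStatement' : Prop :=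
  ∀ (M p : ℕ) [NeZero M] [NeZero p], p.Prime → p ≠ 2 → ¬ p ∣ M → (5 ≤ p ∨ (p = 3 ∧ 2 ∣ M)) →
    New.NodalEQ M p

/-- The three nodes at a level which carries a good base. -/
theorem nodes_of_base' (hEQ : NodalEQStatement') (M p : ℕ) [NeZero M] [NeZero p] (hp : p.Prime)
    (hp2 : p ≠ 2) (hpM : ¬ p ∣ M) (hD : Nonempty (S18.BaseData M p))
    (h : 5 ≤ p ∨ (p = 3 ∧ 2 ∣ M)) : NodeOld1 M p ∧ NodeOld2 M p ∧ NodeNew M p := by
  have : Fact p.Prime := ⟨hp⟩
  obtain ⟨D⟩ := hD
  exact ⟨Old.nodeOld1 hp2 hpM D (NV2.finite_W M p hp.pos), Old.nodeOld2 hp2 hpM D,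
    New.nodeNew_of_nodalEQ hp (hEQ M p hp hp2 hpM h)⟩

/-- **The three geometric nodes, for all levels** (second shape of the provider). -/
theorem nodesStatement' (hEQ : NodalEQStatement') : NodesStatement := by
  intro M p _ _ hp hp2 hpM
  by_cases h5 : 5 ≤ p
  · exact nodes_of_base' hEQ M p hp hp2 hpM (S18.Base.nonempty_baseData_j M p hp h5) (Or.inl h5)
  · have hp3 : p = 3 := by
      have h2 := hp.two_le
      have h4 : p ≠ 4 := by
        rintro rfl
        exact absurd hp (by norm_num)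
      omega
    subst hp3
    by_cases h2M : 2 ∣ M
    · exact nodes_of_base' hEQ M 3 hp hp2 hpM (S18.Base.nonempty_baseData_h2 M h2M)
        (Or.inr ⟨rfl, h2M⟩)
    · have h3 : ¬ 3 ∣ M * 2 := fun h =>
        (Nat.prime_three.dvd_mul.1 h).elim hpM (by norm_num)
      obtain ⟨n1, n2, n3⟩ := nodes_of_base' hEQ (M * 2) 3 hp hp2 h3
        (S18.Base.nonempty_baseData_h2 (M * 2) (dvd_mul_left 2 M))
        (Or.inr ⟨rfl, dvd_mul_left 2 M⟩)
      exact ⟨Inst.nodeOld1_of_mul_two h2M hpM n1, Inst.nodeOld2_of_mul_two h2M hpM n2,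
        Inst.nodeNew_of_mul_two h2M hpM n3⟩

end Fermat.Agent.S33.Mid
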