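/-
S33, middle layer (chief helper165).  The residual trace `tauRes`, the residual eigensystem `psiRes`
and the facts needed by `Mid.exists_eigen`, for a tower of a level `M` possibly different from the
level `N` of the datum (same `p`, `S`).
-/
import Fermat.Agent.S33.Top2

set_option autoImplicit false
set_option linter.unusedSectionVars false

namespace Fermat.Agent.S33.Mid

open IsLocalRing CuspForm Fermat.Agent.S30 Fermat.Agent.S31 Fermat.Agent.GAL

variable {p : ℕ} {N : ℕ} [NeZero N] {S : Finset ℕ}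
  {𝒪 : Type} [CommRing 𝒪] [IsDomain 𝒪] [IsDiscreteValuationRing 𝒪]
  [IsAdicComplete (IsLocalRing.maximalIdeal 𝒪) 𝒪]
  {θ : CuspForm.heckeAlgebra N 2 (↑S : Set ℕ) →+* IsLocalRing.ResidueField 𝒪}
  {T : Type} [CommRing T] [IsLocalRing T] [IsNoetherianRing T]
  [IsAdicComplete (IsLocalRing.maximalIdeal T) T] [Algebra 𝒪 T] [IsLocalHom (algebraMap 𝒪 T)]
  [Module.Finite 𝒪 T] [Module.Free 𝒪 T]

/-- The residual trace. -/
noncomputable def tauRes (H : CuspForm.HeckeGaloisRepDatum N (↑S : Set ℕ) 𝒪 θ T) (g : GQ) :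
    ResidueField T :=
  residue T (LinearMap.trace T H.ρ.V (H.ρ.ρ g))

/-- The residual eigensystem, with values in the residue field of `T`. -/
noncomputable def psiRes (H : CuspForm.HeckeGaloisRepDatum N (↑S : Set ℕ) 𝒪 θ T) :
    HA →+* ResidueField T :=
  (residue T).comp (H.π.comp (evHA N S))

/-- (`H.residue_π`, injectivity of a field hom). -/
theorem psiRes_eq_zero_iff (H : CuspForm.HeckeGaloisRepDatum N (↑S : Set ℕ) 𝒪 θ T) (Q : HA) :
    psiRes H Q = 0 ↔ (θ.comp (evHA N S)) Q = 0 := by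
  show residue T (H.π (evHA N S Q)) = 0 ↔ θ (evHA N S Q) = 0
  rw [H.residue_π, map_eq_zero]

/-- `exists_rep` for a tower of another level (copy the proof of `S33.exists_rep` with `n = 1`). -/
theorem exists_rep' [Fact p.Prime] (hpS : p ∈ S) (hNS : ∀ q : ℕ, q.Prime → q ∣ N → q ∈ S)
    (H : CuspForm.HeckeGaloisRepDatum N (↑S : Set ℕ) 𝒪 θ T) {M : ℕ} [NeZero M]
    (U' : UTower M p S) (k : ℕ) (g : GQ) (b : ℕ) (hb : IsCyc p k g b) :
    ∃ Q : HA, Rep (U'.ρ k) g b Q ∧ psiRes H Q = tauRes H g := by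
  obtain ⟨L₁, hL₁fin, hL₁⟩ := H.ρ.isAdicContinuous 1
  obtain ⟨L₂, hL₂fin, hL₂⟩ := U'.finiteLevel k
  obtain ⟨L₃, hL₃fin, hL₃⟩ := exists_cycloField p k
  have hfin12 : FiniteDimensional ℚ (L₁ ⊔ L₂ : IntermediateField ℚ (AlgebraicClosure ℚ)) :=
    IntermediateField.finiteDimensional_sup L₁ L₂
  have hfin : FiniteDimensional ℚ (L₁ ⊔ L₂ ⊔ L₃ : IntermediateField ℚ (AlgebraicClosure ℚ)) :=
    IntermediateField.finiteDimensional_sup (L₁ ⊔ L₂) L₃
  obtain ⟨ℓ, A, σ, w, hℓ, hℓS, hA, hσ, hw⟩ := frobPowDense (L₁ ⊔ L₂ ⊔ L₃) hfin S g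
  have hle₁ : L₁ ≤ L₁ ⊔ L₂ ⊔ L₃ := le_sup_left.trans le_sup_left
  have hle₂ : L₂ ≤ L₁ ⊔ L₂ ⊔ L₃ := le_sup_right.trans le_sup_left
  have hle₃ : L₃ ≤ L₁ ⊔ L₂ ⊔ L₃ := le_sup_right
  have hℓN : ¬ ℓ ∣ N := fun hd => hℓS (hNS ℓ hℓ hd)
  have hℓS1 : ℓ ∉ (↑S : Set ℕ) := by simpa using hℓS
  have hℓp : ℓ ≠ p := fun h => hℓS (h ▸ hpS)
  have hρ : U'.ρ k (σ ^ w) = U'.ρ k g := rho_eq_of_agree U' k hL₂ (fun x hx => hw x (hle₂ hx))
  have hρinv := rho_inv_eq_of_eq U' k hρ
  have hcyc : ℓ ^ w ≡ b [MOD p ^ k] := by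
    have h1 : IsCyc p k (σ ^ w) (ℓ ^ w) := (isCyc_frob hℓ hℓp ⟨A, hA, hσ⟩).pow w
    have h3 : IsCyc p k (σ ^ w) b := hb.congr (fun μ hμ => hw μ (hle₃ (hL₃ μ hμ)))
    exact h1.modEq h3
  refine ⟨lucas (MvPolynomial.X ℓ : HA) (ℓ : HA) w, ?_, ?_⟩
  · intro v
    rw [lucas_smul U' k hℓ hℓS ⟨A, hA, hσ⟩ w v, hρ, hρinv,
      nsmul_eq_of_modEq hcyc _ (U'.pow_smul k _)]
  · have h1 := trace_sub_trace_mem H.ρ 1 L₁ hL₁ g (σ ^ w) (fun x hx => (hw x (hle₁ hx)).symm)
    rw [trace_frob_pow H hℓ hℓN hℓS1 A hA σ hσ w, pow_one, ← residue_eq_zero_iff, map_sub,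
      sub_eq_zero] at h1
    show residue T (H.π (evHA N S _)) = residue T _
    rw [evHA_lucas hℓ hℓN hℓS1]
    exact h1.symm

/-- (`trace_sub_one_sub_det_mem`, `det_sub_natCast_mem` with `n = 1`). -/
theorem tauRes_inertia [Fact p.Prime] (hp𝒪 : (p : 𝒪) ∈ IsLocalRing.maximalIdeal 𝒪) (hpS : p ∈ S)
    (hNS : ∀ q : ℕ, q.Prime → q ∣ N → q ∈ S)
    (H : CuspForm.HeckeGaloisRepDatum N (↑S : Set ℕ) 𝒪 θ T)
    (hres : (GaloisRepAdic.ofResidualGaloisRep H.ρ.residual).IsOrdinaryAt p)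
    {P : ValuationSubring (AlgebraicClosure ℚ)} (hP : P.LiesOverPrime p) {σ : GQ}
    (hσ : σ ∈ P.inertiaSubgroupIn ℚ) {b : ℕ} (hb : IsCyc p 1 σ b) :
    tauRes H σ = 1 + (b : ResidueField T) := by
  have h1 := trace_sub_one_sub_det_mem H.ρ hres hP hσ
  have h2 := det_sub_natCast_mem hp𝒪 hpS hNS H 1 σ b hb
  rw [pow_one, ← residue_eq_zero_iff, map_sub, map_natCast, sub_eq_zero] at h2
  rw [← residue_eq_zero_iff, map_sub, map_sub, map_one, h2, sub_sub, sub_eq_zero] at h1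
  exact h1

/-- An endomorphism which is the identity modulo the line spanned by the first basis vector acts on
this line through its determinant. -/
theorem apply_eq_det_smul_of_basis {k V : Type*} [CommRing k] [AddCommGroup V] [Module k V]
    (b : Module.Basis (Fin 2) k V) (f : Module.End k V)
    (hf : ∀ v : V, f v - v ∈ Submodule.span k {b 0}) :
    f (b 0) = LinearMap.det f • b 0 := by
  obtain ⟨c0, hc0⟩ := Submodule.mem_span_singleton.1 (hf (b 0))
  obtain ⟨c1, hc1⟩ := Submodule.mem_span_singleton.1 (hf (b 1))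
  have e0 : f (b 0) = (1 + c0) • b 0 := by
    rw [add_smul, one_smul, hc0]; abel
  have e1 : f (b 1) = b 1 + c1 • b 0 := by
    rw [hc1]; abel
  have hdet : LinearMap.det f = 1 + c0 := by
    rw [← LinearMap.det_toMatrix b, Matrix.det_fin_two]
    simp only [LinearMap.toMatrix_apply, e0, e1, map_add, map_smul, Module.Basis.repr_self,
      Finsupp.smul_apply, Finsupp.add_apply, Finsupp.single_apply, smul_eq_mul]
    simp
  rw [hdet, e0]

/-- The trace relation coming from `(s - det s) σ (s - 1) = 0`. -/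
theorem trace_rel_of_basis {k V : Type*} [CommRing k] [AddCommGroup V] [Module k V]
    (b : Module.Basis (Fin 2) k V) (fs fσ fg : Module.End k V)
    (hs : ∀ v : V, fs v - v ∈ Submodule.span k {b 0})
    (hσ : ∀ v ∈ Submodule.span k {b 0}, fσ v ∈ Submodule.span k {b 0}) :
    LinearMap.trace k V (fs * fσ * fs * fg) - LinearMap.trace k V (fs * fσ * fg)
      - LinearMap.det fs * LinearMap.trace k V (fσ * fs * fg)
      + LinearMap.det fs * LinearMap.trace k V (fσ * fg) = 0 := by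
  set d := LinearMap.det fs with hd
  have hb0 : fs (b 0) = d • b 0 := apply_eq_det_smul_of_basis b fs hs
  have key : (fs - d • (1 : Module.End k V)) * fσ * (fs - 1) = 0 := by
    refine LinearMap.ext fun v => ?_
    obtain ⟨t, ht⟩ := Submodule.mem_span_singleton.1 (hσ _ (hs v))
    show (fs - d • (1 : Module.End k V)) (fσ ((fs - 1) v)) = 0
    rw [LinearMap.sub_apply fs 1 v, Module.End.one_apply, ← ht, LinearMap.sub_apply,
      LinearMap.smul_apply, Module.End.one_apply, map_smul, hb0, smul_comm, sub_self]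
  have e : fs * fσ * fs * fg - fs * fσ * fg - d • (fσ * fs * fg) + d • (fσ * fg) =
      ((fs - d • (1 : Module.End k V)) * fσ * (fs - 1)) * fg := by
    simp only [sub_mul, mul_sub, smul_mul_assoc, one_mul, mul_one]
    abel
  have h := congrArg (LinearMap.trace k V) e
  rw [key, zero_mul, map_zero, map_add, map_sub, map_sub, map_smul, map_smul, smul_eq_mul,
    smul_eq_mul] at h
  exact h

/-- `(s - a) σ (s - 1) = 0` in the residual representation: `(s - 1) V ⊆ L`, `σ L ⊆ L`, and `s`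
acts on the line `L` through `det s = a` (as `s` is trivial on `V / L`). -/
theorem tauRes_rel [Fact p.Prime] (hp𝒪 : (p : 𝒪) ∈ IsLocalRing.maximalIdeal 𝒪) (hpS : p ∈ S)
    (hNS : ∀ q : ℕ, q.Prime → q ∣ N → q ∈ S)
    (H : CuspForm.HeckeGaloisRepDatum N (↑S : Set ℕ) 𝒪 θ T)
    (hres : (GaloisRepAdic.ofResidualGaloisRep H.ρ.residual).IsOrdinaryAt p)
    {P : ValuationSubring (AlgebraicClosure ℚ)} (hP : P.LiesOverPrime p) {s : GQ}
    (hs : s ∈ P.inertiaSubgroupIn ℚ) {a : ℕ} (ha : IsCyc p 1 s a) {σ : GQ}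
    (hσ : σ ∈ P.inertiaSubgroupIn ℚ) (g : GQ) :
    tauRes H (s * σ * s * g) - tauRes H (s * σ * g) - a * tauRes H (σ * s * g)
      + a * tauRes H (σ * g) = 0 := by
  obtain ⟨L, ⟨b, rfl⟩, h1, h2⟩ := hres P hP
  have h := trace_rel_of_basis b _ _ ((GaloisRepAdic.ofResidualGaloisRep H.ρ.residual).ρ g)
    (h2 s hs) (h1 σ (inertia_le_decomposition hσ))
  rw [← map_mul, ← map_mul, ← map_mul, ← map_mul, ← map_mul, ← map_mul, ← map_mul] at h
  have htr : ∀ x : GQ, LinearMap.trace (ResidueField T) _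
      ((GaloisRepAdic.ofResidualGaloisRep H.ρ.residual).ρ x) = tauRes H x := by
    intro x
    change LinearMap.trace (ResidueField T) _ ((H.ρ.ρ x).baseChange (ResidueField T)) = _
    rw [LinearMap.trace_baseChange, ResidueField.algebraMap_eq]
    rfl
  have hdet : LinearMap.det ((GaloisRepAdic.ofResidualGaloisRep H.ρ.residual).ρ s) =
      (a : ResidueField T) := by
    change LinearMap.det ((H.ρ.ρ s).baseChange (ResidueField T)) = _
    rw [LinearMap.det_baseChange, ResidueField.algebraMap_eq]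
    have h3 := det_sub_natCast_mem hp𝒪 hpS hNS H 1 s a ha
    rwa [pow_one, ← residue_eq_zero_iff, map_sub, map_natCast, sub_eq_zero] at h3
  rw [htr, htr, htr, htr, hdet] at h
  exact h

/-- (`exists_noncomm H.ρ H.residual_absIrr`). -/
theorem tauRes_noncomm (H : CuspForm.HeckeGaloisRepDatum N (↑S : Set ℕ) 𝒪 θ T) :
    ∃ h1 h2 h3 : GQ, tauRes H (h1 * h2 * h3) ≠ tauRes H (h2 * h1 * h3) := by
  obtain ⟨h1, h2, h3, h⟩ := exists_noncomm H.ρ H.residual_absIrr
  refine ⟨h1, h2, h3, fun heq => h ?_⟩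
  rw [← residue_eq_zero_iff, map_sub, sub_eq_zero]
  exact heq

end Fermat.Agent.S33.Mid
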